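import Fermat.Agent.CountableModels.Translates

/-!
# Counting the countable models

A countable model is given up to isomorphism by the dimension of its minimal set. So a complete
theory which is categorical in an uncountable size has one or infinitely countably many countable
models.
-/

set_option autoImplicit false

universe u v w

namespace FA.CountableModels

open FirstOrder Language Cardinal Set FA.Morley FA.StronglyMinimal FA.TwoCardinal

variable {L : Language.{u, v}} {T : L.Theory}

/-- The empty map between models of a complete theory is elementary. -/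
theorem partialElementary_empty (hT : T.IsComplete)
    (M N : Theory.ModelType.{u, v, max u v} T) : IsPartialElementary L (∅ : Set (M × N)) := by
  intro m φ idx
  rcases m with - | m
  · have e : ∀ (K : Theory.ModelType.{u, v, max u v} T) (z : Fin 0 → K),
        φ.Realize z ↔ K ⊨ (φ.relabel Fin.elim0 : L.Sentence) := fun K z => by
      rw [Sentence.Realize, Formula.realize_relabel]
      exact iff_of_eq (congrArg _ (Subsingleton.elim _ _))
    rw [e M, e N, hT.realize_sentence_iff, hT.realize_sentence_iff]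
  · exact absurd (idx 0).2 (notMem_empty _)

namespace Setting

variable {C : Setting T} {M N : Theory.ModelType.{u, v, max u v} T} {b : Fin C.arity → M}

theorem exists_saturated [Countable L.Symbols] (C : Setting T) :
    ∃ E : Theory.ModelType.{u, v, max u v} T, #E = ℵ_ 1 ∧ IsSaturated L (ℵ_ 1) E :=
  @exists_countablySaturated L T _ C.stable C.base C.infinite _ (aleph_one_le_iff.1 le_rfl)

/-- An elementary embedding keeps the dimension. -/
theorem hasDim_map_iff (e : M ↪ₑ[L] N) {n : ℕ} :
    C.HasDim (e ∘ b) (range e) n ↔ C.HasDim b Set.univ n := by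
  let R : Set (M × N) := range fun a => (a, e a)
  have hR : IsPartialElementary L R := by
    choose s hs using fun p : R => p.2
    have h := (elemEquiv_map e (id : M → M)).comp s
    rwa [show id ∘ s = fun p : R => p.1.1 from funext fun p => congrArg Prod.fst (hs p),
      show (e ∘ id) ∘ s = fun p : R => p.1.2 from funext fun p => congrArg Prod.snd (hs p)] at h
  have h1 : Prod.fst '' R = Set.univ := eq_univ_of_forall fun a => ⟨_, ⟨a, rfl⟩, rfl⟩
  have h2 : Prod.snd '' R = range e := by
    rw [← range_comp]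
    rfl
  refine ⟨fun h => ?_, fun h => h2 ▸ C.hasDim_transfer hR
    (range_subset_iff.2 fun j => ⟨b j, rfl⟩) (h1.symm ▸ h)⟩
  have h1' : Prod.fst '' (Prod.swap '' R) = range e := by rw [image_image, ← h2]; rfl
  have h2' : Prod.snd '' (Prod.swap '' R) = Set.univ := by rw [image_image, ← h1]; rfl
  exact h2' ▸ C.hasDim_transfer hR.swap (b := e ∘ b) (b' := b)
    (range_subset_iff.2 fun j => ⟨_, ⟨b j, rfl⟩, rfl⟩) (h1'.symm ▸ h)

theorem hasFiniteSpan_of_hasDim (hb : C.IsParam b) {n : ℕ} (h : C.HasDim b Set.univ n) :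
    C.HasFiniteSpan := by
  obtain ⟨I, ⟨hI, -, hIs⟩, hIn⟩ := h
  exact ⟨M, b, I, hb, finite_of_encard_eq_coe hIn, hI.trans inter_subset_left,
    (C.minimal M b hb).1.mono fun a ha => ⟨hIs ⟨ha, trivial⟩, ha⟩⟩

/-- **The dimension of a countable model** does not depend on the parameters. -/
theorem hasDim_univ_congr [Countable L.Symbols] (hM : (Set.univ : Set M).Countable)
    {b' : Fin C.arity → M} (hb : C.IsParam b) (hb' : C.IsParam b') {n : ℕ}
    (h : C.HasDim b Set.univ n) : C.HasDim b' Set.univ n := by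
  obtain ⟨E, -, hsat⟩ := C.exists_saturated
  obtain ⟨R, -, hR, -, hdom⟩ := exists_extend_domain (isRichSet_univ_of_isSaturated hsat)
    countable_empty (partialElementary_empty C.isComplete M E) hM (subset_univ _)
  have htot : ∀ a, ∃ y, (a, y) ∈ R := fun a => by
    obtain ⟨p, hp, rfl⟩ : a ∈ Prod.fst '' R := hdom.ge (mem_univ a)
    exact ⟨p.2, hp⟩
  choose F hF using htot
  have hall : ElemEquiv L (id : M → M) F := hR.comp fun a : M => (⟨(a, F a), hF a⟩ : R)
  let e : M ↪ₑ[L] E := ⟨F, fun m φ a => (hall m φ a).symm⟩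
  obtain ⟨S, hS⟩ := exists_elementary_range (L := L) (F : M → E) fun φ hφ =>
    (hall.exists_holds φ).2 hφ |>.imp fun x hx => (hall.holds_iff φ id x).1 hx
  refine (C.hasDim_map_iff e).1 ?_
  have := C.hasDim_param_congr hsat (C.hasFiniteSpan_of_hasDim hb h)
    ((C.isParam_map_iff e).2 hb) ((C.isParam_map_iff e).2 hb')
    (S := S) (hS ▸ range_comp_subset_range _ _) (hS ▸ range_comp_subset_range _ _)
    (hS.symm ▸ (C.hasDim_map_iff e).2 h)
  exact hS ▸ this

/-- **Models with bases of one size are isomorphic.** -/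
theorem nonempty_equiv_of_bases {b' : Fin C.arity → N} (hb : C.IsParam b) (hb' : C.IsParam b')
    {I : Set M} {I' : Set N} (hI : IsBasisIn L (range b) (C.solutions b ∩ Set.univ) I)
    (hI' : IsBasisIn L (range b') (C.solutions b' ∩ Set.univ) I') (f : I ≃ I') :
    Nonempty (M ≃[L] N) := by
  let g : I → N := fun a => f a
  have hg : range g = I' := (f.surjective.range_comp Subtype.val).trans Subtype.range_coe
  have hR := partialElementary_basisGraph (hb.symm.trans hb') (C.minimal M b hb)
    (hI.1.trans inter_subset_left) hI.2.1 (Subtype.val_injective.comp f.injective)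
    (e := g) (hg.le.trans (hI'.1.trans inter_subset_left)) (hg.symm ▸ hI'.2.1)
  have hfst : range b ∪ I ⊆ Prod.fst '' basisGraph b b' I g := by
    rintro a (⟨j, rfl⟩ | ha)
    exacts [⟨_, .inl ⟨j, rfl⟩, rfl⟩, ⟨_, .inr ⟨⟨a, ha⟩, rfl⟩, rfl⟩]
  have hsnd : range b' ∪ I' ⊆ Prod.snd '' basisGraph b b' I g := by
    rintro a (⟨j, rfl⟩ | ha)
    · exact ⟨_, .inl ⟨j, rfl⟩, rfl⟩
    · obtain ⟨i, rfl⟩ := hg.ge ha
      exact ⟨_, .inr ⟨i, rfl⟩, rfl⟩
  obtain ⟨e, -, honto⟩ := exists_embedding_of_acl C.stable C.noVP M N (C.minimal M b hb).1 hR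
    subset_union_left fun a ha => acl_mono hfst (hI.2.2 ⟨ha, trivial⟩)
  exact ⟨⟨Equiv.ofBijective e ⟨e.injective, honto (C.minimal N b' hb').1
      fun a ha => acl_mono hsnd (hI'.2.2 ⟨ha, trivial⟩)⟩,
    fun {m} g x => e.map_fun g x, fun {m} R x => e.map_rel R x⟩⟩

/-- The dimension of a model: a number, or none when there is no finite basis. -/
def HasClass (C : Setting T) (K : Theory.ModelType.{u, v, max u v} T) : Option ℕ → Prop
  | some n => ∃ b : Fin C.arity → K, C.IsParam b ∧ C.HasDim b Set.univ n
  | none => ∀ (b : Fin C.arity → K) (n : ℕ), C.IsParam b → ¬C.HasDim b Set.univ n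

theorem exists_hasClass (C : Setting T) (K : Theory.ModelType.{u, v, max u v} T) :
    ∃ d, C.HasClass K d := by
  by_cases h : ∃ (b : Fin C.arity → K) (n : ℕ), C.IsParam b ∧ C.HasDim b Set.univ n
  · obtain ⟨b, n, hb, hn⟩ := h
    exact ⟨some n, b, hb, hn⟩
  · exact ⟨none, fun b n hb hn => h ⟨b, n, hb, hn⟩⟩

theorem hasClass_unique [Countable L.Symbols] (hM : (Set.univ : Set M).Countable) {d d' : Option ℕ}
    (h : C.HasClass M d) (h' : C.HasClass M d') : d = d' := by
  rcases d with - | n <;> rcases d' with - | n'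
  · rfl
  · obtain ⟨b, hb, hn⟩ := h'
    exact absurd hn (h b n' hb)
  · obtain ⟨b, hb, hn⟩ := h
    exact absurd hn (h' b n hb)
  · obtain ⟨b, hb, hn⟩ := h
    obtain ⟨b', hb', hn'⟩ := h'
    exact congrArg some (C.hasDim_unique hb' (C.hasDim_univ_congr hM hb hb' hn) hn')

theorem hasClass_map (e : M ≃[L] N) {d : Option ℕ} (h : C.HasClass M d) : C.HasClass N d := by
  let e' : M ↪ₑ[L] N := e.toElementaryEmbedding
  have he : range e' = Set.univ := e.surjective.range_eq
  rcases d with - | n
  · intro b' n hb' hn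
    have hb : e' ∘ (e.symm ∘ b') = b' := funext fun j => e.apply_symm_apply _
    exact h (e.symm ∘ b') n ((C.isParam_map_iff e').1 (hb.symm ▸ hb'))
      ((C.hasDim_map_iff e').1 (hb.symm ▸ he.symm ▸ hn))
  · obtain ⟨b, hb, hn⟩ := h
    exact ⟨e' ∘ b, (C.isParam_map_iff e').2 hb, he ▸ (C.hasDim_map_iff e').2 hn⟩

/-- **Countable models of one dimension are isomorphic.** -/
theorem nonempty_equiv_of_class (hM : #M = ℵ₀) (hN : #N = ℵ₀) {d : Option ℕ}
    (h : C.HasClass M d) (h' : C.HasClass N d) : Nonempty (M ≃[L] N) := by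
  rcases d with - | n
  · have key : ∀ (K : Theory.ModelType.{u, v, max u v} T), #K = ℵ₀ → C.HasClass K none →
        ∃ (c : Fin C.arity → K) (I : Set K), C.IsParam c ∧
          IsBasisIn L (range c) (C.solutions c ∩ Set.univ) I ∧ #I = ℵ₀ := by
      intro K hK hcl
      obtain ⟨c, hc⟩ := C.exists_param K
      obtain ⟨I, -, hI⟩ := exists_isBasisIn (C.minimal K c hc) (Y := C.solutions c ∩ Set.univ)
        subset_rfl inter_subset_left (I₀ := ∅) (fun a ha => absurd ha (notMem_empty a))
        (empty_subset _)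
      refine ⟨c, I, hc, hI, le_antisymm ((mk_set_le I).trans hK.le) ?_⟩
      by_contra hlt
      have hf : I.Finite := lt_aleph0_iff_set_finite.1 (not_le.1 hlt)
      exact hcl c I.ncard hc ⟨I, hI, hf.cast_ncard_eq.symm⟩
    obtain ⟨b, I, hb, hI, hIc⟩ := key M hM h
    obtain ⟨b', I', hb', hI', hI'c⟩ := key N hN h'
    obtain ⟨f⟩ := Cardinal.eq.1 (hIc.trans hI'c.symm)
    exact C.nonempty_equiv_of_bases hb hb' hI hI' f
  · obtain ⟨b, hb, I, hI, hIn⟩ := h
    obtain ⟨b', hb', I', hI', hI'n⟩ := h'
    have hIf := finite_of_encard_eq_coe hIn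
    have hI'f := finite_of_encard_eq_coe hI'n
    obtain ⟨f⟩ := Cardinal.eq.1 (show #I = #I' by
      rw [← hIf.cast_ncard_eq] at hIn
      rw [← hI'f.cast_ncard_eq] at hI'n
      rw [← cast_ncard hIf, ← cast_ncard hI'f, show I.ncard = I'.ncard by
        exact_mod_cast hIn.trans hI'n.symm])
    exact C.nonempty_equiv_of_bases hb hb' hI hI' f

/-- **Large finite dimensions all occur**, if some finite set spans infinitely many points. -/
theorem exists_models_of_dims [Countable L.Symbols] (hspan : C.HasFiniteSpan) :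
    ∃ n₀ : ℕ, ∀ n, ∃ K : Theory.ModelType.{u, v, max u v} T,
      #K = ℵ₀ ∧ C.HasClass K (some (n₀ + n)) := by
  obtain ⟨E, hE, -⟩ := C.exists_saturated
  obtain ⟨b, hb⟩ := C.exists_param E
  have hD := C.minimal E b hb
  obtain ⟨X, hXf, hXD, hinf⟩ := C.exists_finite_infinite_acl hspan hb
  obtain ⟨I, -, hI⟩ := exists_isBasisIn hD (Y := X) subset_rfl hXD
    (I₀ := ∅) (fun a ha => absurd ha (notMem_empty a)) (empty_subset _)
  have hIf := hXf.subset hI.1
  refine ⟨I.ncard, fun n => ?_⟩
  have hlarge : ¬#(C.solutions b) ≤ ℵ₀ := by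
    let φ : PFormula L E :=
      ⟨C.arity, C.θ.relabel (Sum.elim Fin.castSucc fun _ => Fin.last _), b⟩
    have hφ : FA.Morley.solutions id φ = C.solutions b := by
      ext z
      show Holds id φ z ↔ _
      simp only [Holds, φ, Formula.realize_relabel, Setting.solutions, mem_solSet]
      exact iff_of_eq (congrArg _ (funext fun i => by rcases i with i | i <;> simp))
    rw [← hφ, mk_solutions_eq C.noVP E φ (hφ ▸ hD.1), hE]
    exact (aleph_one_le_iff.1 le_rfl).not_ge
  obtain ⟨J, hIJ, hJD, hJi, hJn⟩ : ∃ J, I ⊆ J ∧ J ⊆ C.solutions b ∧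
      IsIndepOver L (range b) J ∧ J.encard = (I.ncard + n : ℕ) := by
    induction n with
    | zero => exact ⟨I, subset_rfl, hI.1.trans hXD, hI.2.1, by simp [hIf.cast_ncard_eq]⟩
    | succ n ih =>
      obtain ⟨J, hIJ, hJD, hJi, hJn⟩ := ih
      obtain ⟨e, he, hne⟩ := not_subset.1 fun hsub : C.solutions b ⊆ acl L (range b ∪ J) =>
        hlarge ((mk_le_mk_of_subset hsub).trans ((mk_acl_le _).trans (max_le le_rfl
          (add_le_aleph0.2 ⟨le_aleph0_iff_set_countable.2
            ((countable_range b).union (finite_of_encard_eq_coe hJn).countable),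
            card_language_le⟩))))
      refine ⟨insert e J, hIJ.trans (subset_insert _ _), insert_subset he hJD,
        hJi.insert_of_notMem hD subset_rfl hJD he hne, ?_⟩
      rw [encard_insert_of_notMem fun h => hne (subset_acl _ (.inr h)), hJn]
      push_cast
      exact add_assoc _ _ _
  have := nonempty_submodel (⊤ : L.ElementarySubstructure E)
  obtain ⟨S, hS, -, hiso⟩ := exists_atomic_within C.stable (⊤ : L.ElementarySubstructure E)
    (C := range b ∪ J) (subset_univ _)
  obtain ⟨hbS, hJS⟩ := union_subset_iff.1 hS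
  have hdim : C.HasDim b S (I.ncard + n) := ⟨J, ⟨subset_inter hJD hJS, hJi, fun z hz =>
    mem_acl_of_isolated hD subset_union_left (hinf.mono (inter_subset_inter_left _
      (acl_subset_acl (union_subset (subset_union_left.trans (subset_acl _))
        (hI.2.2.trans (acl_mono (union_subset_union_right _ hIJ)))))))
      hz.1 (hiso 1 (fun _ => z) fun _ => hz.2)⟩, hJn⟩
  have := nonempty_submodel S
  let K := Theory.ModelType.of T S
  have := C.infinite
  have : Infinite K := infinite_of_isComplete C.isComplete C.base K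
  have hcount : #K ≤ ℵ₀ := le_aleph0_iff_set_countable.2 (C.countable_of_hasDim hb hbS hdim)
  refine ⟨K, hcount.antisymm (aleph0_le_mk K), fun j => ⟨b j, hbS ⟨j, rfl⟩⟩, ?_, ?_⟩
  · exact (C.isParam_map_iff (M := K) S.subtype).1 hb
  · refine (C.hasDim_map_iff (M := K) S.subtype).1 ?_
    show C.HasDim b (range fun x : S => (x : E)) (I.ncard + n)
    convert hdim using 1
    exact Subtype.range_coe

end Setting

/-- **Countable models.** An omega-stable complete theory without Vaughtian pairs has one
countable model up to isomorphism or countably infinitely many. -/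
theorem countable_models_of_not_hasVaughtianPair [Countable L.Symbols] (hT : T.IsComplete)
    (M₀ : Theory.ModelType.{u, v, max u v} T) [Infinite M₀] (hst : IsOmegaStable T)
    (hVP : ¬HasVaughtianPair T) :
    Cardinal.Categorical.{u, v, max u v} ℵ₀ T ∨ ∃ rep : ℕ → Theory.ModelType.{u, v, max u v} T,
      (∀ n, #(rep n) = ℵ₀) ∧ (∀ m n, Nonempty (rep m ≃[L] rep n) → m = n) ∧
        ∀ N : Theory.ModelType.{u, v, max u v} T, #N = ℵ₀ → ∃ n, Nonempty (N ≃[L] rep n) := by
  obtain ⟨C⟩ := nonempty_setting hT M₀ hst hVP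
  by_cases hspan : C.HasFiniteSpan
  · right
    let P : Set (Option ℕ) :=
      {d | ∃ K : Theory.ModelType.{u, v, max u v} T, #K = ℵ₀ ∧ C.HasClass K d}
    obtain ⟨n₀, hn₀⟩ := C.exists_models_of_dims hspan
    have hP : P.Infinite := infinite_of_injective_forall_mem
      (f := fun n => some (n₀ + n)) (fun m n h => by simpa using h) hn₀
    have := hP.to_subtype
    obtain ⟨e⟩ : Nonempty (ℕ ≃ P) := nonempty_equiv_of_countable
    choose rep hcard hclass using fun d : P => d.2
    refine ⟨fun n => rep (e n), fun n => hcard _, fun m n ⟨g⟩ => e.injective (Subtype.ext ?_),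
      fun N hN => ?_⟩
    · have hc : (Set.univ : Set (rep (e n))).Countable :=
        le_aleph0_iff_set_countable.1 (mk_univ.le.trans (hcard _).le)
      exact C.hasClass_unique hc (C.hasClass_map g (hclass (e m))) (hclass (e n))
    · obtain ⟨d, hd⟩ := C.exists_hasClass N
      refine ⟨e.symm ⟨d, N, hN, hd⟩, C.nonempty_equiv_of_class hN (hcard _) hd ?_⟩
      have := hclass (e (e.symm ⟨d, N, hN, hd⟩))
      rwa [show (e (e.symm ⟨d, N, hN, hd⟩)).1 = d from
        congrArg Subtype.val (e.apply_symm_apply _)] at this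
  · exact .inl fun M N hM hN => C.nonempty_equiv_of_class hM hN (d := none)
      (fun b n hb hn => hspan (C.hasFiniteSpan_of_hasDim hb hn))
      fun b n hb hn => hspan (C.hasFiniteSpan_of_hasDim hb hn)

/-- **An uncountably categorical theory has one or countably infinitely many countable models.** -/
theorem countable_models_of_categorical [Countable L.Symbols] (hT : T.IsComplete)
    (M₀ : Theory.ModelType.{u, v, max u v} T) [Infinite M₀] {κ : Cardinal.{max u v}}
    (hκ : ℵ₀ < κ) (h : κ.Categorical T) :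
    Cardinal.Categorical.{u, v, max u v} ℵ₀ T ∨ ∃ rep : ℕ → Theory.ModelType.{u, v, max u v} T,
      (∀ n, #(rep n) = ℵ₀) ∧ (∀ m n, Nonempty (rep m ≃[L] rep n) → m = n) ∧
        ∀ N : Theory.ModelType.{u, v, max u v} T, #N = ℵ₀ → ∃ n, Nonempty (N ≃[L] rep n) :=
  countable_models_of_not_hasVaughtianPair hT M₀
    (isOmegaStable_of_categorical_of_isComplete hT M₀ hκ h)
    (not_hasVaughtianPair_of_categorical hT hκ h)

end FA.CountableModels
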