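import Fermat.Agent.CountableModels.Dimension

/-!
# The difference of two dimensions

Inside a fixed model the difference of the dimensions over two parameter tuples does not depend on
the submodel around them; it is additive and depends only on the joint type of the tuples.
-/

set_option autoImplicit false

universe u v w

namespace FA.CountableModels

open FirstOrder Language Cardinal Set FA.Morley FA.StronglyMinimal FA.TwoCardinal

variable {L : Language.{u, v}} {T : L.Theory}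

/-- **Atomic sets over corresponding finite bases correspond.** -/
theorem exists_map_atomic {M N : Type w} [L.Structure M] [L.Structure N]
    (S : L.ElementarySubstructure M) (S' : L.ElementarySubstructure N)
    (hS : (S : Set M).Countable) (hS' : (S' : Set N).Countable) (R₀ : Finset (M × N))
    (hR₀ : IsPartialElementary L (R₀ : Set (M × N))) (hR₀S : ∀ p ∈ R₀, p.1 ∈ S ∧ p.2 ∈ S')
    (hiso : ∀ (n : ℕ) (a : Fin n → M), (∀ i, a i ∈ S) →
      Isolated L (Subtype.val : ↥(Prod.fst '' (R₀ : Set (M × N))) → M) a)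
    (hiso' : ∀ (n : ℕ) (a : Fin n → N), (∀ i, a i ∈ S') →
      Isolated L (Subtype.val : ↥(Prod.snd '' (R₀ : Set (M × N))) → N) a) :
    ∃ R : Set (M × N), (R₀ : Set (M × N)) ⊆ R ∧ IsPartialElementary L R ∧
      Prod.fst '' R = S ∧ Prod.snd '' R = S' := by
  classical
  refine exists_back_forth hS hS' R₀ hR₀ hR₀S (fun R hR hsub hRS a ha => ?_)
    fun R hR hsub hRS a ha => ?_
  · let w : Fin R.card → M := fun i => ((R.equivFin.symm i).1).1
    have hw : range (fun p : (R : Set (M × N)) => p.1.1) ⊆ range w := by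
      rintro _ ⟨p, rfl⟩
      exact ⟨R.equivFin ⟨p.1, p.2⟩, by simp [w]⟩
    obtain ⟨a', ha', hins⟩ := exists_insert_isolated hR (isolated_of_snoc (w := w) (a := a)
      (hiso _ _ fun i => by
        induction i using Fin.lastCases with
        | last => simpa using ha
        | cast i => simpa [w] using (hRS _ (R.equivFin.symm i).2).1)
      (by rw [Subtype.range_coe]; rintro _ ⟨p, hp, rfl⟩; exact ⟨⟨p, hsub hp⟩, rfl⟩)
      (by rintro _ ⟨i, rfl⟩; exact ⟨⟨_, (R.equivFin.symm i).2⟩, rfl⟩)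
      (hw.trans subset_union_right)) S' (by rintro _ ⟨p, hp, rfl⟩; exact (hRS p hp).2)
    exact ⟨a', ha', hins⟩
  · let Q : Set (N × M) := Prod.swap '' (R : Set (M × N))
    let w : Fin R.card → N := fun i => ((R.equivFin.symm i).1).2
    have hw : range (fun p : Q => p.1.1) ⊆ range w := by
      rintro _ ⟨⟨_, p, hp, rfl⟩, rfl⟩
      exact ⟨R.equivFin ⟨p, hp⟩, by simp [w]⟩
    obtain ⟨a', ha', hins⟩ := exists_insert_isolated (R := Q) hR.swap
      (isolated_of_snoc (w := w) (a := a)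
        (hiso' _ _ fun i => by
          induction i using Fin.lastCases with
          | last => simpa using ha
          | cast i => simpa [w] using (hRS _ (R.equivFin.symm i).2).2)
        (by rw [Subtype.range_coe]; rintro _ ⟨p, hp, rfl⟩; exact ⟨⟨_, p, hsub hp, rfl⟩, rfl⟩)
        (by rintro _ ⟨i, rfl⟩; exact ⟨⟨_, _, (R.equivFin.symm i).2, rfl⟩, rfl⟩)
        (hw.trans subset_union_right)) S
      (by rintro _ ⟨_, ⟨p, hp, rfl⟩, rfl⟩; exact (hRS p hp).1)
    refine ⟨a', ha', ?_⟩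
    have := hins.swap
    rw [image_insert_eq, image_image] at this
    simpa using this

namespace Setting

variable {C : Setting T} {M N : Theory.ModelType.{u, v, max u v} T} {b x y z : Fin C.arity → M}
  {b' : Fin C.arity → N}

/-- Elementary bijections of sets keep the dimension. -/
theorem hasDim_transfer {R : Set (M × N)} (hR : IsPartialElementary L R)
    (hpar : paramPairs b b' ⊆ R) {n : ℕ} (h : C.HasDim b (Prod.fst '' R) n) :
    C.HasDim b' (Prod.snd '' R) n := by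
  obtain ⟨I, ⟨hI, hIi, hIs⟩, hIn⟩ := h
  let RI : Set (M × N) := {p ∈ R | p.1 ∈ I}
  have hpair : ∀ {a : M}, a ∈ range b ∪ I → ∃ a', (a, a') ∈ R := fun {a} ha => by
    rcases ha with ⟨j, rfl⟩ | ha
    · exact ⟨b' j, hpar ⟨j, rfl⟩⟩
    · obtain ⟨p, hp, rfl⟩ := (hI ha).2
      exact ⟨p.2, hp⟩
  have hfst : range b ∪ I ⊆ Prod.fst '' R := fun a ha =>
    let ⟨a', h'⟩ := hpair ha
    ⟨(a, a'), h', rfl⟩
  refine ⟨Prod.snd '' RI, ⟨?_, ?_, ?_⟩, ?_⟩
  · rintro _ ⟨⟨a, a'⟩, ⟨hp, ha⟩, rfl⟩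
    exact ⟨(C.mem_solutions_transfer hR hpar hp).1 (hI ha).1, _, hp, rfl⟩
  · rintro _ ⟨⟨a, a'⟩, ⟨hp, ha⟩, rfl⟩ hmem
    have hmem' := mem_acl_transfer hR.swap ?_ (show (a', a) ∈ Prod.swap '' R from ⟨_, hp, rfl⟩) hmem
    · refine hIi a ha (acl_mono ?_ hmem')
      rintro _ ⟨_, ⟨⟨⟨c, c'⟩, hc, rfl⟩, hc'⟩, rfl⟩
      rcases hc' with ⟨j, hj⟩ | ⟨⟨⟨d, d'⟩, ⟨hd, hdI⟩, hdc⟩, hne⟩
      · exact .inl ⟨j, (hR.left_unique (hpar ⟨j, rfl⟩) hc).2 hj⟩
      · have e : d = c := (hR.left_unique hd hc).2 hdc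
        exact .inr ⟨e ▸ hdI, fun h => hne ((hR.left_unique hc hp).1 h)⟩
    · rintro c (⟨j, rfl⟩ | ⟨⟨q, ⟨hq, -⟩, rfl⟩, -⟩)
      · exact ⟨(b' j, b j), ⟨_, hpar ⟨j, rfl⟩, rfl⟩, rfl⟩
      · exact ⟨q.swap, ⟨q, hq, rfl⟩, rfl⟩
  · rintro a' ⟨ha', ⟨a, _⟩, hp, rfl⟩
    refine acl_mono ?_ (mem_acl_transfer hR hfst hp
      (hIs ⟨(C.mem_solutions_transfer hR hpar hp).2 ha', _, hp, rfl⟩))
    rintro _ ⟨⟨c, c'⟩, ⟨hc, hcI⟩, rfl⟩
    rcases hcI with ⟨j, rfl⟩ | hcI
    exacts [.inl ⟨j, (hR.left_unique (hpar ⟨j, rfl⟩) hc).1 rfl⟩, .inr ⟨_, ⟨hc, hcI⟩, rfl⟩]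
  · have hinj : InjOn Prod.snd RI := fun p hp q hq h =>
      Prod.ext ((hR.left_unique hp.1 hq.1).2 h) h
    have hfst' : Prod.fst '' RI = I := by
      refine Subset.antisymm (by rintro _ ⟨p, hp, rfl⟩; exact hp.2) fun a ha => ?_
      obtain ⟨p, hp, rfl⟩ := (hI ha).2
      exact ⟨p, ⟨hp, ha⟩, rfl⟩
    have hinj' : InjOn Prod.fst RI := fun p hp q hq h =>
      Prod.ext h ((hR.left_unique hp.1 hq.1).1 h)
    rw [hinj.encard_image, ← hinj'.encard_image, hfst', hIn]

/-- The dimensions over two tuples differ in all submodels by one number, fixed by their type. -/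
theorem hasDim_congr [Countable L.Symbols] {x' y' : Fin C.arity → M} (hx : C.IsParam x)
    (hy : C.IsParam y) (hxy : ElemEquiv L (Sum.elim x y) (Sum.elim x' y'))
    {S S' : L.ElementarySubstructure M} {n m n' m' : ℕ} (hxS : range x ⊆ S) (hyS : range y ⊆ S)
    (hxS' : range x' ⊆ S') (hyS' : range y' ⊆ S') (hn : C.HasDim x S n) (hm : C.HasDim y S m)
    (hn' : C.HasDim x' S' n') (hm' : C.HasDim y' S' m') : n + m' = n' + m := by
  classical
  have hx' : C.IsParam x' := hx.trans (hxy.comp Sum.inl)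
  have hy' : C.IsParam y' := hy.trans (hxy.comp Sum.inr)
  let pair : Fin C.arity ⊕ Fin C.arity → M × M := fun i => (Sum.elim x y i, Sum.elim x' y' i)
  let R₀ : Finset (M × M) := Finset.univ.image pair
  have hR₀c : (R₀ : Set (M × M)) = range pair := by simp [R₀]
  have hR₀ : IsPartialElementary L (R₀ : Set (M × M)) := by
    choose sec hsec using fun p : (R₀ : Set (M × M)) => hR₀c.le p.2
    have h' := hxy.comp sec
    rwa [show Sum.elim x y ∘ sec = fun p => p.1.1 from funext fun p => congrArg Prod.fst (hsec p),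
      show Sum.elim x' y' ∘ sec = fun p => p.1.2 from
        funext fun p => congrArg Prod.snd (hsec p)] at h'
  have hfst : Prod.fst '' (R₀ : Set (M × M)) = range x ∪ range y := by
    rw [hR₀c, ← range_comp, ← Sum.elim_range]
    rfl
  have hsnd : Prod.snd '' (R₀ : Set (M × M)) = range x' ∪ range y' := by
    rw [hR₀c, ← range_comp, ← Sum.elim_range]
    rfl
  have := nonempty_submodel S
  have := nonempty_submodel S'
  obtain ⟨S₀, hS₀, hS₀S, hiso⟩ :=
    exists_atomic_within C.stable S (hfst.trans_subset (union_subset hxS hyS))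
  obtain ⟨S₀', hS₀', hS₀S', hiso'⟩ :=
    exists_atomic_within C.stable S' (hsnd.trans_subset (union_subset hxS' hyS'))
  obtain ⟨R, hR₀R, hR, h1, h2⟩ := exists_map_atomic S₀ S₀'
    ((C.countable_of_hasDim hx hxS hn).mono hS₀S) ((C.countable_of_hasDim hx' hxS' hn').mono hS₀S')
    R₀ hR₀ (fun p hp => ⟨hS₀ ⟨p, hp, rfl⟩, hS₀' ⟨p, hp, rfl⟩⟩) hiso hiso'
  rw [hfst] at hS₀
  rw [hsnd] at hS₀'
  obtain ⟨hxS₀, hyS₀⟩ := union_subset_iff.1 hS₀
  obtain ⟨hxS₀', hyS₀'⟩ := union_subset_iff.1 hS₀'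
  obtain ⟨n₀, hn₀le, hn₀⟩ := C.hasDim_mono hx hS₀S hn
  obtain ⟨m₀, -, hm₀⟩ := C.hasDim_mono hy hS₀S hm
  obtain ⟨d, rfl⟩ := Nat.exists_eq_add_of_le hn₀le
  have e₁ := C.hasDim_unique hy hm (C.hasDim_add hx hy S d hxS₀ hyS₀ hS₀S hn₀ hm₀ hn)
  obtain ⟨n₀', hn₀'le, hn₀'⟩ := C.hasDim_mono hx' hS₀S' hn'
  obtain ⟨m₀', -, hm₀'⟩ := C.hasDim_mono hy' hS₀S' hm'
  obtain ⟨d', rfl⟩ := Nat.exists_eq_add_of_le hn₀'le
  have e₂ := C.hasDim_unique hy' hm' (C.hasDim_add hx' hy' S' d' hxS₀' hyS₀' hS₀S' hn₀' hm₀' hn')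
  have hpar : ∀ i, pair i ∈ R := fun i => hR₀R (hR₀c.ge ⟨i, rfl⟩)
  have e₃ := C.hasDim_unique hx' hn₀' (h2 ▸ C.hasDim_transfer hR
    (range_subset_iff.2 fun j => hpar (.inl j)) (h1.symm ▸ hn₀))
  have e₄ := C.hasDim_unique hy' hm₀' (h2 ▸ C.hasDim_transfer hR
    (range_subset_iff.2 fun j => hpar (.inr j)) (h1.symm ▸ hm₀))
  omega

open Classical in
/-- The dimension over the first tuple less that over the second, in a submodel around both. -/
noncomputable def diff (C : Setting T) {M : Theory.ModelType.{u, v, max u v} T}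
    (x y : Fin C.arity → M) : ℤ :=
  if h : ∃ p : ℕ × ℕ, ∃ S : L.ElementarySubstructure M, range x ⊆ S ∧ range y ⊆ S ∧
      C.HasDim x S p.1 ∧ C.HasDim y S p.2 then (h.choose.1 : ℤ) - h.choose.2 else 0

theorem diff_eq [Countable L.Symbols] {S : L.ElementarySubstructure M} {n m : ℕ}
    (hx : C.IsParam x) (hy : C.IsParam y) (hxS : range x ⊆ S) (hyS : range y ⊆ S)
    (hn : C.HasDim x S n) (hm : C.HasDim y S m) : C.diff x y = n - m := by
  have h : ∃ p : ℕ × ℕ, ∃ S : L.ElementarySubstructure M, range x ⊆ S ∧ range y ⊆ S ∧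
      C.HasDim x S p.1 ∧ C.HasDim y S p.2 := ⟨(n, m), S, hxS, hyS, hn, hm⟩
  rw [diff, dif_pos h]
  obtain ⟨S', h1, h2, h3, h4⟩ := h.choose_spec
  have := C.hasDim_congr hx hy (elemEquiv_refl _) hxS hyS h1 h2 hn hm h3 h4
  omega

theorem exists_submodel_dims (hspan : C.HasFiniteSpan) (hx : C.IsParam x) (hy : C.IsParam y)
    (hz : C.IsParam z) :
    ∃ (S : L.ElementarySubstructure M) (n m l : ℕ), range x ⊆ S ∧ range y ⊆ S ∧ range z ⊆ S ∧
      C.HasDim x S n ∧ C.HasDim y S m ∧ C.HasDim z S l := by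
  obtain ⟨S, hxS, hF, -, n, hn⟩ := C.exists_finiteDim_within (S := ⊤) hspan hx (subset_univ _)
    ((finite_range y).union (finite_range z)) (subset_univ _)
  obtain ⟨hyS, hzS⟩ := union_subset_iff.1 hF
  obtain ⟨m, hm⟩ := C.exists_hasDim hspan hx hy hxS hyS hn
  obtain ⟨l, hl⟩ := C.exists_hasDim hspan hx hz hxS hzS hn
  exact ⟨S, n, m, l, hxS, hyS, hzS, hn, hm, hl⟩

/-- **The difference is additive.** -/
theorem diff_add [Countable L.Symbols] (hspan : C.HasFiniteSpan) (hx : C.IsParam x)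
    (hy : C.IsParam y) (hz : C.IsParam z) : C.diff x y + C.diff y z = C.diff x z := by
  obtain ⟨S, n, m, l, hxS, hyS, hzS, hn, hm, hl⟩ := C.exists_submodel_dims hspan hx hy hz
  rw [C.diff_eq hx hy hxS hyS hn hm, C.diff_eq hy hz hyS hzS hm hl,
    C.diff_eq hx hz hxS hzS hn hl]
  exact sub_add_sub_cancel _ _ _

/-- **The difference depends only on the joint type.** -/
theorem diff_congr [Countable L.Symbols] (hspan : C.HasFiniteSpan) {x' y' : Fin C.arity → M}
    (hx : C.IsParam x) (hy : C.IsParam y)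
    (hxy : ElemEquiv L (Sum.elim x y) (Sum.elim x' y')) : C.diff x y = C.diff x' y' := by
  have hx' : C.IsParam x' := hx.trans (hxy.comp Sum.inl)
  have hy' : C.IsParam y' := hy.trans (hxy.comp Sum.inr)
  obtain ⟨S, n, m, -, hxS, hyS, -, hn, hm, -⟩ := C.exists_submodel_dims hspan hx hy hy
  obtain ⟨S', n', m', -, hxS', hyS', -, hn', hm', -⟩ := C.exists_submodel_dims hspan hx' hy' hy'
  have := C.hasDim_congr hx hy hxy hxS hyS hxS' hyS' hn hm hn' hm'
  rw [C.diff_eq hx hy hxS hyS hn hm, C.diff_eq hx' hy' hxS' hyS' hn' hm']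
  omega

end Setting

end FA.CountableModels
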