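import Fermat.Agent.CountableModels.Submodels

/-!
# The dimension of a submodel

In an omega-stable theory without Vaughtian pairs a submodel around parameters of the minimal set
has a dimension, and adding one generic point of one minimal set adds one generic point of each.
-/

set_option autoImplicit false

universe u v w

namespace FA.CountableModels

open FirstOrder Language Cardinal Set FA.Morley FA.StronglyMinimal FA.TwoCardinal

variable {L : Language.{u, v}}

/-- An omega-stable complete theory without Vaughtian pairs, with a strongly minimal formula and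
the type of its parameters. -/
structure Setting (T : L.Theory) where
  isComplete : T.IsComplete
  stable : IsOmegaStable T
  noVP : ¬HasVaughtianPair T
  base : Theory.ModelType.{u, v, max u v} T
  infinite : Infinite base
  arity : ℕ
  θ : L.Formula (Fin arity ⊕ Fin 1)
  t : Fin arity → base
  exists_param : ∀ M : Theory.ModelType.{u, v, max u v} T,
    ∃ b : Fin arity → M, ElemEquiv L t b
  minimal : ∀ (M : Theory.ModelType.{u, v, max u v} T) (b : Fin arity → M),
    ElemEquiv L t b → IsMinimalSet L (solSet θ b)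

/-- A formula uses finitely many parameters. -/
theorem exists_finite_support {M : Type w} [L.Structure M] {C : Set M} {n : ℕ}
    (χ : L.Formula (C ⊕ Fin n)) :
    ∃ C' ⊆ C, C'.Finite ∧ ∃ χ' : L.Formula (C' ⊕ Fin n),
      ∀ c : Fin n → M, χ'.Realize (Sum.elim Subtype.val c) ↔
        χ.Realize (Sum.elim Subtype.val c) := by
  classical
  let s := (BoundedFormula.freeVarFinset χ).toLeft
  let C' : Set M := Subtype.val '' (s : Set C)
  refine ⟨C', fun x ⟨p, _, hp⟩ => hp ▸ p.2, s.finite_toSet.image _,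
    BoundedFormula.restrictFreeVar χ fun a => match a with
      | ⟨Sum.inl p, h⟩ => Sum.inl ⟨p.1, p, Finset.mem_toLeft.2 h, rfl⟩
      | ⟨Sum.inr i, _⟩ => Sum.inr i, fun c => ?_⟩
  exact BoundedFormula.realize_restrictFreeVar (Sum.elim Subtype.val c) fun i => by
    rcases i with ⟨p | l, h⟩ <;> rfl

variable {T : L.Theory}

/-- A submodel of a model is inhabited. -/
theorem nonempty_submodel {M : Theory.ModelType.{u, v, max u v} T}
    (S : L.ElementarySubstructure M) : Nonempty S := by
  obtain ⟨a, ha, -⟩ := exists_mem_holds S (⟨0, ⊤, Fin.elim0⟩ : PFormula L M) (f := id)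
    (fun j => j.elim0) ⟨Classical.arbitrary M, by simp [Holds]⟩
  exact ⟨⟨a, ha⟩⟩

/-- Omega-stable theories without Vaughtian pairs have such a setting. -/
theorem nonempty_setting [Countable L.Symbols] (hT : T.IsComplete)
    (M₀ : Theory.ModelType.{u, v, max u v} T) [hinf : Infinite M₀] (hst : IsOmegaStable T)
    (hVP : ¬HasVaughtianPair T) : Nonempty (Setting T) := by
  obtain ⟨k, θ, t, ht⟩ := exists_stronglyMinimal_set hT M₀ hst hVP
  obtain ⟨b₀, hb₀, hD₀⟩ := ht M₀
  exact ⟨⟨hT, hst, hVP, M₀, hinf, k, θ, t, fun M => (ht M).imp fun b hb => hb.1,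
    fun M b hb => isMinimalSet_congr hT M₀ hVP (hb₀.symm.trans hb) hD₀⟩⟩

namespace Setting

variable (C : Setting T) {M N : Theory.ModelType.{u, v, max u v} T} {b x y : Fin C.arity → M}
  {b' : Fin C.arity → N} {S S' : L.ElementarySubstructure M}

/-- Parameters of the right type. -/
def IsParam {K : Type w} [L.Structure K] (b : Fin C.arity → K) : Prop :=
  ElemEquiv L C.t b

/-- The minimal set of the parameters. -/
def solutions {K : Type w} [L.Structure K] (b : Fin C.arity → K) : Set K :=
  solSet C.θ b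

/-- A basis of `n` points of the part of the minimal set in a set. -/
def HasDim {K : Type w} [L.Structure K] (b : Fin C.arity → K) (S : Set K) (n : ℕ) : Prop :=
  ∃ I, IsBasisIn L (range b) (C.solutions b ∩ S) I ∧ I.encard = n

/-- Some finite set spans infinitely many points of a minimal set. -/
def HasFiniteSpan : Prop :=
  ∃ (M : Theory.ModelType.{u, v, max u v} T) (b : Fin C.arity → M) (X : Set M), C.IsParam b ∧
    X.Finite ∧ X ⊆ C.solutions b ∧ (acl L (range b ∪ X) ∩ C.solutions b).Infinite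

variable {C}

theorem isParam_map_iff (e : M ↪ₑ[L] N) {c : Fin C.arity → M} :
    C.IsParam (e ∘ c) ↔ C.IsParam c :=
  ⟨fun h => h.trans (elemEquiv_map e c).symm, fun h => h.trans (elemEquiv_map e c)⟩

theorem mem_solutions_map_iff (e : M ↪ₑ[L] N) {c : Fin C.arity → M} {a : M} :
    e a ∈ C.solutions (e ∘ c) ↔ a ∈ C.solutions c :=
  mem_solSet_map_iff e C.θ c a

theorem infinite_inter (hb : C.IsParam b) (hbS : range b ⊆ S) :
    (C.solutions b ∩ (S : Set M)).Infinite := by
  have := nonempty_submodel S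
  let b₁ : Fin C.arity → Theory.ModelType.of T S := fun j => ⟨b j, hbS ⟨j, rfl⟩⟩
  have hb₁ : C.IsParam b₁ :=
    (C.isParam_map_iff (M := Theory.ModelType.of T S) S.subtype (c := b₁)).1 hb
  refine (((C.minimal _ b₁ hb₁).1).image Subtype.val_injective.injOn).mono ?_
  rintro _ ⟨a, ha, rfl⟩
  exact ⟨(C.mem_solutions_map_iff (M := Theory.ModelType.of T S) S.subtype (c := b₁)).2 ha, a.2⟩

theorem eq_of_subset (hb : C.IsParam b) (hbS : range b ⊆ S') (hsub : (S' : Set M) ⊆ S)
    (hD : C.solutions b ∩ (S : Set M) ⊆ S') : (S' : Set M) = S := by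
  have := nonempty_submodel S
  exact eq_of_inter_subset C.noVP S S' hsub (fun j => hbS ⟨j, rfl⟩)
    (C.infinite_inter hb (hbS.trans hsub)) hD

theorem hasDim_unique (hb : C.IsParam b) {X : Set M} {n m : ℕ} (hn : C.HasDim b X n)
    (hm : C.HasDim b X m) : n = m := by
  obtain ⟨I, ⟨hI, hIi, hIs⟩, hIn⟩ := hn
  obtain ⟨J, ⟨hJ, hJi, hJs⟩, hJm⟩ := hm
  have hD := C.minimal M b hb
  have h1 := hIi.encard_le hD subset_rfl (hI.trans inter_subset_left) (hJ.trans inter_subset_left)
    (finite_of_encard_eq_coe hJm) (hI.trans hJs)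
  have h2 := hJi.encard_le hD subset_rfl (hJ.trans inter_subset_left) (hI.trans inter_subset_left)
    (finite_of_encard_eq_coe hIn) (hJ.trans hIs)
  rw [hIn, hJm] at h1 h2
  exact le_antisymm (by exact_mod_cast h1) (by exact_mod_cast h2)

theorem exists_hasDim_of_subset_acl (hb : C.IsParam b) {X Y : Set M} (hY : Y.Finite)
    (hYD : Y ⊆ C.solutions b) (h : C.solutions b ∩ X ⊆ acl L (range b ∪ Y)) :
    ∃ n ≤ Y.ncard, C.HasDim b X n := by
  have hD := C.minimal M b hb
  obtain ⟨I, -, hI⟩ := exists_isBasisIn hD (Y := C.solutions b ∩ X) subset_rfl inter_subset_left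
    (I₀ := ∅) (fun a ha => absurd ha (notMem_empty a)) (empty_subset _)
  have hle := hI.2.1.encard_le hD subset_rfl (hI.1.trans inter_subset_left) hYD hY (hI.1.trans h)
  obtain ⟨hIf, hle'⟩ := encard_le_coe_iff_finite_ncard_le.1 (hY.cast_ncard_eq ▸ hle)
  exact ⟨I.ncard, hle', I, hI, hIf.cast_ncard_eq.symm⟩

theorem hasDim_mono (hb : C.IsParam b) {X X' : Set M} (hXX' : X ⊆ X') {n : ℕ}
    (h : C.HasDim b X' n) : ∃ m ≤ n, C.HasDim b X m := by
  obtain ⟨I, ⟨hI, -, hIs⟩, hIn⟩ := h
  obtain ⟨m, hm, hX⟩ := C.exists_hasDim_of_subset_acl hb (finite_of_encard_eq_coe hIn)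
    (hI.trans inter_subset_left) ((inter_subset_inter_right _ hXX').trans hIs)
  exact ⟨m, hm.trans_eq (by rw [ncard_def, hIn, ENat.toNat_natCast]), hX⟩

/-- An elementary map respects the minimal sets. -/
theorem mem_solutions_transfer {R : Set (M × N)} (hR : IsPartialElementary L R)
    (hpar : paramPairs b b' ⊆ R) {a : M} {a' : N} (ha : (a, a') ∈ R) :
    a ∈ C.solutions b ↔ a' ∈ C.solutions b' := by
  let r : Fin C.arity ⊕ Fin 1 → R :=
    Sum.elim (fun j => ⟨(b j, b' j), hpar ⟨j, rfl⟩⟩) fun _ => ⟨(a, a'), ha⟩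
  have h := elemEquiv_realize (hR.comp r) C.θ
  rw [show (fun p : R => p.1.1) ∘ r = Sum.elim b (fun _ => a) from
      funext fun i => by rcases i with i | i <;> rfl,
    show (fun p : R => p.1.2) ∘ r = Sum.elim b' (fun _ => a') from
      funext fun i => by rcases i with i | i <;> rfl] at h
  exact h

/-- **A finite spanning set transfers** to every minimal set. -/
theorem exists_finite_infinite_acl (h : C.HasFiniteSpan) (hb : C.IsParam b) :
    ∃ X, X.Finite ∧ X ⊆ C.solutions b ∧ (acl L (range b ∪ X) ∩ C.solutions b).Infinite := by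
  classical
  obtain ⟨M₀, b₀, X₀, hb₀, hX₀f, hX₀D, hinf⟩ := h
  have hD₀ := C.minimal M₀ b₀ hb₀
  have hD := C.minimal M b hb
  obtain ⟨I₀, -, hI₀X, hI₀i, hI₀s⟩ := exists_isBasisIn hD₀ (Y := X₀) subset_rfl hX₀D
    (I₀ := ∅) (fun a ha => absurd ha (notMem_empty a)) (empty_subset _)
  obtain ⟨J, -, hJD, hJi, hJs⟩ := exists_isBasisIn hD (Y := C.solutions b) subset_rfl subset_rfl
    (I₀ := ∅) (fun a ha => absurd ha (notMem_empty a)) (empty_subset _)
  rcases J.finite_or_infinite with hJf | hJinf
  · exact ⟨J, hJf, hJD, hD.1.mono fun a ha => ⟨hJs ha, ha⟩⟩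
  have := (hX₀f.subset hI₀X).fintype
  let e : I₀ → M := fun a => hJinf.natEmbedding _ (Fintype.equivFin I₀ a).val
  have he : Function.Injective e := Subtype.val_injective.comp
    ((hJinf.natEmbedding _).injective.comp (Fin.val_injective.comp (Equiv.injective _)))
  have heJ : range e ⊆ J := range_subset_iff.2 fun a => Subtype.property _
  have hR₀ := partialElementary_basisGraph (hb₀.symm.trans hb) hD₀ (hI₀X.trans hX₀D) hI₀i he
    (heJ.trans hJD) (hJi.subset heJ)
  obtain ⟨R, hR₀R, hR⟩ := zorn_subset_nonempty {R : Set (M₀ × M) | IsPartialElementary L R}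
    (fun c hc hchain hne => ⟨⋃₀ c, partialElementary_sUnion hchain.directedOn hne fun X hX => hc hX,
      fun X hX => subset_sUnion_of_mem hX⟩) _ hR₀
  let A := Prod.fst '' basisGraph b₀ b I₀ e
  have hA : A = range b₀ ∪ I₀ := by
    simp only [A, basisGraph, paramPairs, image_union, ← range_comp, Function.comp_def,
      Subtype.range_coe_subtype, ofPred_mem_eq]
  have hspan : acl L (range b₀ ∪ X₀) ⊆ acl L A := hA ▸ acl_subset_acl
    (union_subset (subset_union_left.trans (subset_acl _)) hI₀s)
  have hex : ∀ a : ↥(acl L (range b₀ ∪ X₀) ∩ C.solutions b₀), ∃ a', (a.1, a') ∈ R := fun a => by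
    obtain ⟨a', ha'⟩ := hR.prop.exists_insert (acl_mono (image_mono hR₀R) (hspan a.2.1))
    exact ⟨a', hR.le_of_ge ha' (subset_insert _ _) (mem_insert _ _)⟩
  choose F hF using hex
  have := hinf.to_subtype
  refine ⟨range e, finite_range e, heJ.trans hJD, Set.infinite_coe_iff.1 (Infinite.of_injective
    (fun a => ⟨F a, ?_, ?_⟩) fun a a' haa' => Subtype.ext
      ((hR.prop.left_unique (hF a) (hF a')).2 (congrArg Subtype.val haa')))⟩
  · refine acl_mono ?_ (mem_acl_transfer hR.prop (image_mono hR₀R) (hF a) (hspan a.2.1))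
    rintro _ ⟨p, ⟨hp, q, hq, hqp⟩, rfl⟩
    rw [(hR.prop.left_unique hp (hR₀R hq)).1 hqp.symm]
    rcases hq with ⟨j, rfl⟩ | ⟨i, rfl⟩
    exacts [.inl ⟨j, rfl⟩, .inr ⟨i, rfl⟩]
  · exact (C.mem_solutions_transfer hR.prop (subset_union_left.trans hR₀R) (hF a)).1 a.2.2

/-- A finite spanning set inside a submodel. -/
theorem exists_finite_span_within (h : C.HasFiniteSpan) (hb : C.IsParam b) (hbS : range b ⊆ S) :
    ∃ X, X.Finite ∧ X ⊆ C.solutions b ∩ S ∧
      (acl L (range b ∪ X) ∩ C.solutions b).Infinite := by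
  have := nonempty_submodel S
  let K := Theory.ModelType.of T S
  let ι : K ↪ₑ[L] M := S.subtype
  let b₁ : Fin C.arity → K := fun j => ⟨b j, hbS ⟨j, rfl⟩⟩
  obtain ⟨X, hXf, hXD, hinf⟩ := C.exists_finite_infinite_acl h
    (M := K) (b := b₁) ((C.isParam_map_iff ι (c := b₁)).1 hb)
  refine ⟨ι '' X, hXf.image _, ?_, (hinf.image ι.injective.injOn).mono ?_⟩
  · rintro _ ⟨a, ha, rfl⟩
    exact ⟨(C.mem_solutions_map_iff ι (c := b₁)).2 (hXD ha), a.2⟩
  · rintro _ ⟨a, ⟨ha, haD⟩, rfl⟩
    refine ⟨acl_mono ?_ ((mem_acl_image_iff ι).2 ha),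
      (C.mem_solutions_map_iff ι (c := b₁)).2 haD⟩
    rw [image_union, ← range_comp]
    exact subset_rfl

/-- **Every finite set lies in a submodel of finite dimension** if some finite set spans
infinitely many points of a minimal set. -/
theorem exists_finiteDim_within (h : C.HasFiniteSpan) (hb : C.IsParam b) (hbS : range b ⊆ S)
    {F : Set M} (hF : F.Finite) (hFS : F ⊆ S) :
    ∃ S' : L.ElementarySubstructure M, range b ⊆ S' ∧ F ⊆ S' ∧ (S' : Set M) ⊆ S ∧
      ∃ n, C.HasDim b S' n := by
  classical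
  have := nonempty_submodel S
  have hD := C.minimal M b hb
  let a : Fin hF.toFinset.card → M := fun i => (hF.toFinset.equivFin.symm i).1
  have hra : range a = F :=
    ((hF.toFinset.equivFin.symm.surjective.range_comp (Subtype.val : hF.toFinset → M)).trans
      Subtype.range_coe).trans hF.coe_toFinset
  obtain ⟨χ, hχa, hχ⟩ := exists_isolating_over_minimal C.stable C.noVP S
    (fun j => hbS ⟨j, rfl⟩) (C.infinite_inter hb hbS) a fun i => hFS (hra ▸ mem_range_self i)
  obtain ⟨P, hP, hPf, χ', hχ'⟩ := exists_finite_support χ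
  obtain ⟨X, hXf, hXD, hXinf⟩ := C.exists_finite_span_within h hb hbS
  let A : Set M := range b ∪ (P ∪ X)
  have hAC : A ⊆ range b ∪ C.solutions b ∩ S :=
    union_subset subset_union_left (union_subset hP (hXD.trans subset_union_right))
  have hAS : A ∪ F ⊆ S := union_subset (hAC.trans (union_subset hbS inter_subset_right)) hFS
  obtain ⟨S', hS', hS'S, hiso⟩ := exists_atomic_within C.stable S hAS
  refine ⟨S', (subset_union_left.trans subset_union_left).trans hS', subset_union_right.trans hS',
    hS'S, ?_⟩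
  let Y : Set M := (P ∪ X) ∩ C.solutions b
  obtain ⟨n, -, hn⟩ := C.exists_hasDim_of_subset_acl hb ((hPf.union hXf).inter_of_left _)
    (inter_subset_right : Y ⊆ _) (X := (S' : Set M)) fun e he => by
    have hAY : A ⊆ range b ∪ Y := by
      rintro z (hz | hz)
      · exact .inl hz
      · exact ((hAC (.inr hz)).imp_right fun h' => ⟨hz, h'.1⟩)
    have heA : e ∈ acl L (A ∪ F) := mem_acl_of_isolated hD
      (subset_union_left.trans subset_union_left) (hXinf.mono (inter_subset_inter_left _
        (acl_mono ((union_subset_union_right _ subset_union_right).trans subset_union_left))))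
      he.1 (hiso 1 (fun _ => e) fun _ => he.2)
    refine acl_mono hAY (inter_acl_subset (C := A) subset_union_left (F := a)
      (χ := χ'.relabel (Sum.map (fun p : P => (⟨p.1, .inr (.inl p.2)⟩ : A)) id)) ?_
      (fun F' hF' => ?_) ⟨he.1, by rwa [hra]⟩)
    · rw [Formula.realize_relabel, Sum.elim_comp_map, Function.comp_id]
      exact (hχ' a).2 hχa
    · rw [Formula.realize_relabel, Sum.elim_comp_map, Function.comp_id] at hF'
      let r : ↥(A ∪ solSet C.θ b) → ↥(range b ∪ solSet C.θ b ∩ S ∪ solSet C.θ b) :=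
        fun p => ⟨p.1, p.2.imp (fun h => hAC h) id⟩
      have h := (hχ F' ((hχ' F').1 hF')).comp (Sum.map r id)
      rwa [Sum.elim_comp_map, Sum.elim_comp_map, Function.comp_id, Function.comp_id] at h
  exact ⟨n, hn⟩

/-- A submodel of finite dimension is countable. -/
theorem countable_of_hasDim [Countable L.Symbols] (hb : C.IsParam b) (hbS : range b ⊆ S) {n : ℕ}
    (h : C.HasDim b S n) : (S : Set M).Countable := by
  obtain ⟨I, ⟨-, -, hIs⟩, hIn⟩ := h
  have := nonempty_submodel S
  let K := Theory.ModelType.of T S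
  let b₁ : Fin C.arity → K := fun j => ⟨b j, hbS ⟨j, rfl⟩⟩
  let φ : PFormula L K := ⟨C.arity, C.θ.relabel (Sum.elim Fin.castSucc fun _ => Fin.last _), b₁⟩
  have hφ : FA.Morley.solutions id φ = C.solutions b₁ := by
    ext z
    show Holds id φ z ↔ _
    simp only [Holds, φ, Formula.realize_relabel, Setting.solutions, mem_solSet]
    exact iff_of_eq (congrArg _ (funext fun i => by rcases i with i | i <;> simp))
  have hsize := mk_solutions_eq C.noVP K φ (hφ ▸ (C.minimal K b₁
    ((C.isParam_map_iff (M := K) S.subtype (c := b₁)).1 hb)).1)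
  rw [hφ] at hsize
  have hcount : (C.solutions b ∩ (S : Set M)).Countable := by
    refine Countable.mono hIs (le_aleph0_iff_set_countable.1 ((mk_acl_le _).trans
      (max_le le_rfl (add_le_aleph0.2 ⟨?_, card_language_le⟩))))
    exact le_aleph0_iff_set_countable.2
      ((countable_range b).union (finite_of_encard_eq_coe hIn).countable)
  refine le_aleph0_iff_set_countable.1 (show #K ≤ ℵ₀ from hsize ▸ le_aleph0_iff_set_countable.2 ?_)
  refine countable_of_injective_of_countable_image Subtype.val_injective.injOn (hcount.mono ?_)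
  rintro _ ⟨a, ha, rfl⟩
  exact ⟨(C.mem_solutions_map_iff (M := K) S.subtype (c := b₁)).2 ha, a.2⟩

/-- An atomic submodel over one more generic point has one more dimension. -/
theorem hasDim_succ (hb : C.IsParam b) (hbS : range b ⊆ S) (hsub : (S : Set M) ⊆ S') {e : M}
    (he : e ∈ C.solutions b) (heS' : e ∈ S') (heS : e ∉ S) {n : ℕ} (h : C.HasDim b S n)
    (hiso : ∀ (m : ℕ) (a : Fin m → M), (∀ i, a i ∈ S') →
      Isolated L (Subtype.val : ↥(insert e (S : Set M)) → M) a) :
    C.HasDim b S' (n + 1) ∧ C.solutions b ∩ (S' : Set M) ⊆ acl L (insert e (S : Set M)) := by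
  have := nonempty_submodel S
  obtain ⟨I, ⟨hI, hIi, hIs⟩, hIn⟩ := h
  have hD := C.minimal M b hb
  have hspan : C.solutions b ∩ (S' : Set M) ⊆ acl L (insert e (S : Set M)) := fun z hz =>
    mem_acl_of_isolated hD (hbS.trans (subset_insert _ _))
      ((C.infinite_inter hb hbS).mono fun w hw => ⟨subset_acl _ (mem_insert_of_mem _ hw.2), hw.1⟩)
      hz.1 (hiso 1 (fun _ => z) fun _ => hz.2)
  have hne : e ∉ acl L (range b ∪ I) := fun h => heS
    (acl_subset_submodel S (union_subset hbS (hI.trans inter_subset_right)) h)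
  have heI : e ∉ I := fun h => hne (subset_acl _ (.inr h))
  refine ⟨⟨insert e I, ⟨insert_subset ⟨he, heS'⟩ (hI.trans (inter_subset_inter_right _ hsub)),
    hIi.insert_of_notMem hD subset_rfl (hI.trans inter_subset_left) he hne, fun z hz => ?_⟩, ?_⟩,
    hspan⟩
  · have hz' : z ∈ acl L ((S : Set M) ∪ {e}) := by
      rw [union_singleton]
      exact hspan hz
    refine acl_subset_acl ?_ (inter_acl_submodel_subset C.stable C.noVP S
      (fun j => hbS ⟨j, rfl⟩) (C.infinite_inter hb hbS) (singleton_subset_iff.2 he) ⟨hz.1, hz'⟩)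
    refine union_subset (union_subset (subset_union_left.trans (subset_acl _)) ?_) ?_
    · exact hIs.trans (acl_mono (union_subset_union_right _ (subset_insert _ _)))
    · exact singleton_subset_iff.2 (subset_acl _ (.inr (mem_insert _ _)))
  · rw [encard_insert_of_notMem heI, hIn, Nat.cast_add, Nat.cast_one]

/-- **Dimensions over two parameter tuples grow together.** -/
theorem hasDim_add (hx : C.IsParam x) (hy : C.IsParam y) (S₂ : L.ElementarySubstructure M) :
    ∀ (d : ℕ) {S : L.ElementarySubstructure M} {n₀ m₀ : ℕ}, range x ⊆ S → range y ⊆ S →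
      (S : Set M) ⊆ S₂ → C.HasDim x S n₀ → C.HasDim y S m₀ → C.HasDim x S₂ (n₀ + d) →
      C.HasDim y S₂ (m₀ + d) := by
  intro d
  induction d with
  | zero =>
    intro S n₀ m₀ hxS _ hsub hn hm hn₂
    have : (S : Set M) = S₂ := C.eq_of_subset hx hxS hsub fun e he => by
      by_contra heS
      obtain ⟨I, ⟨hI, hIi, -⟩, hIn⟩ := hn
      obtain ⟨J, ⟨hJ, -, hJs⟩, hJn⟩ := hn₂
      have hne : e ∉ acl L (range x ∪ I) := fun h => heS
        (acl_subset_submodel S (union_subset hxS (hI.trans inter_subset_right)) h)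
      have hID := hI.trans inter_subset_left
      have h := (hIi.insert_of_notMem (C.minimal M x hx) subset_rfl hID he.1 hne).encard_le
        (C.minimal M x hx) subset_rfl (insert_subset he.1 hID) (hJ.trans inter_subset_left)
        (finite_of_encard_eq_coe hJn) ((insert_subset he
          (hI.trans (inter_subset_inter_right _ hsub))).trans hJs)
      rw [encard_insert_of_notMem fun h => hne (subset_acl _ (.inr h)), hIn, hJn] at h
      norm_cast at h
      omega
    rwa [Nat.add_zero, ← this]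
  | succ d ih =>
    intro S n₀ m₀ hxS hyS hsub hn hm hn₂
    obtain ⟨e, he, heS⟩ : ∃ e ∈ C.solutions x ∩ (S₂ : Set M), e ∉ S := by
      by_contra! hall
      have h := C.eq_of_subset hx hxS hsub hall
      have := C.hasDim_unique hx (h ▸ hn) hn₂
      omega
    have := nonempty_submodel S₂
    obtain ⟨S₁, hS₁, hS₁₂, hiso⟩ := exists_atomic_within C.stable S₂
      (C := insert e (S : Set M)) (insert_subset he.2 hsub)
    have hS₁' : (S : Set M) ⊆ S₁ := (subset_insert _ _).trans hS₁
    obtain ⟨hn₁, hspan⟩ := C.hasDim_succ hx hxS hS₁' he.1 (hS₁ (mem_insert _ _)) heS hn hiso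
    obtain ⟨f, hf, hfS⟩ : ∃ f ∈ C.solutions y ∩ (S₁ : Set M), f ∉ S := by
      by_contra! hall
      exact heS ((C.eq_of_subset hy hyS hS₁' hall).ge (hS₁ (mem_insert _ _)))
    have := nonempty_submodel S₁
    obtain ⟨S', hS', hS'₁, hiso'⟩ := exists_atomic_within C.stable S₁
      (C := insert f (S : Set M)) (insert_subset hf.2 hS₁')
    have hSS' : (S : Set M) ⊆ S' := (subset_insert _ _).trans hS'
    obtain ⟨e', he', he'S⟩ : ∃ e' ∈ C.solutions x ∩ (S' : Set M), e' ∉ S := by
      by_contra! hall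
      exact hfS ((C.eq_of_subset hx hxS hSS' hall).ge (hS' (mem_insert _ _)))
    have heacl : e ∈ acl L (insert e' (S : Set M)) := mem_acl_insert_minimal (C.minimal M x hx)
      hxS he.1 he'.1 (hspan ⟨he'.1, hS'₁ he'.2⟩) fun h => he'S (acl_subset_submodel S subset_rfl h)
    have heS' : e ∈ S' := acl_subset_submodel S' (insert_subset he'.2 hSS') heacl
    have heq : (S' : Set M) = S₁ := C.eq_of_subset hx (hxS.trans hSS') hS'₁
      (hspan.trans (acl_subset_submodel S' (insert_subset heS' hSS')))
    obtain ⟨hm₁, -⟩ := C.hasDim_succ hy hyS hS₁' hf.1 hf.2 hfS hm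
      fun m a ha => hiso' m a fun i => heq.ge (ha i)
    rw [show m₀ + (d + 1) = m₀ + 1 + d by omega]
    exact ih (hxS.trans hS₁') (hyS.trans hS₁') hS₁₂ hn₁ hm₁
      (by rwa [show n₀ + 1 + d = n₀ + (d + 1) by omega])

/-- Finite dimension does not depend on the parameters. -/
theorem exists_hasDim (h : C.HasFiniteSpan) (hx : C.IsParam x) (hy : C.IsParam y)
    (hxS : range x ⊆ S) (hyS : range y ⊆ S) {n : ℕ} (hn : C.HasDim x S n) :
    ∃ m, C.HasDim y S m := by
  obtain ⟨S₀, hyS₀, hxS₀, hsub, m₀, hm₀⟩ :=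
    C.exists_finiteDim_within h hy hyS (finite_range x) hxS
  obtain ⟨n₀, hle, hn₀⟩ := C.hasDim_mono hx hsub hn
  obtain ⟨d, rfl⟩ := Nat.exists_eq_add_of_le hle
  exact ⟨_, C.hasDim_add hx hy S d hxS₀ hyS₀ hsub hn₀ hm₀ hn⟩

end Setting

end FA.CountableModels
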