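import Fermat.Agent.TwoCardinal.Categoricity

/-!
# The geometry on a minimal set

Algebraic closure over a set of parameters, restricted to a minimal definable set, satisfies
exchange. This gives independence, bases, the lemma of Steinitz, and the fact that a bijection of
independent sets is elementary.
-/

set_option autoImplicit false

universe u v w

namespace FA.CountableModels

open FirstOrder Language Cardinal Set FA.Morley FA.StronglyMinimal FA.TwoCardinal

variable {L : Language.{u, v}} {M : Type w} [L.Structure M] {N : Type w} [L.Structure N] {k : ℕ}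
  {θ : L.Formula (Fin k ⊕ Fin 1)} {b : Fin k → M} {b' : Fin k → N}

/-- **Exchange** in a minimal set, over a set containing the parameters. -/
theorem mem_acl_insert_minimal (hD : IsMinimalSet L (solSet θ b)) {A : Set M} (hbA : range b ⊆ A)
    {x y : M} (hy : y ∈ solSet θ b) (hx : x ∈ solSet θ b) (h : x ∈ acl L (insert y A))
    (hna : x ∉ acl L A) : y ∈ acl L (insert x A) := by
  classical
  let r : Fin k → A := fun j => ⟨b j, hbA ⟨j, rfl⟩⟩
  let f : A → M := Subtype.val
  let g : M → Option A → M := fun c o => o.elim c f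
  have hg : ∀ c, range (g c) = insert c A := fun c => by
    ext z
    constructor
    · rintro ⟨_ | p, rfl⟩
      exacts [.inl rfl, .inr p.2]
    · rintro (rfl | hz)
      exacts [⟨none, rfl⟩, ⟨some ⟨z, hz⟩, rfl⟩]
  obtain ⟨ψ, hψ, hfin⟩ := Algebraic.of_range_subset (g := g y) (by rw [Subtype.range_coe, hg]) h
  obtain ⟨n, hn⟩ := finite_solSet_iff.1 hfin
  let sw : Option A → (A ⊕ Fin 1) ⊕ Fin 1 := fun o =>
    o.elim (Sum.inr 0) fun p => Sum.inl (Sum.inl p)
  let θA : L.Formula ((A ⊕ Fin 1) ⊕ Fin 1) := θ.relabel (Sum.map (Sum.inl ∘ r) id)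
  let Φ : L.Formula ((A ⊕ Fin 1) ⊕ Fin 1) :=
    θA ⊓ (ψ.relabel (Sum.elim sw fun _ => Sum.inl (Sum.inr 0)) ⊓ (atLeast n ψ).not.relabel sw)
  have hθA : ∀ c : M, solSet θA (Sum.elim f fun _ => c) = solSet θ b := fun c =>
    solSet_relabel (Sum.inl ∘ r) θ _
  have hΦ : ∀ c d, d ∈ solSet Φ (Sum.elim f fun _ => c) ↔
      d ∈ solSet θ b ∧ c ∈ solSet ψ (g d) ∧ ¬(atLeast n ψ).Realize (g d) := by
    intro c d
    have e : Sum.elim (Sum.elim f fun _ : Fin 1 => c) (fun _ : Fin 1 => d) ∘ sw = g d :=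
      funext fun o => by rcases o with _ | o <;> rfl
    simp only [Φ, solSet_inf, hθA, mem_inter_iff, mem_solSet, Formula.realize_relabel,
      Formula.realize_not, e]
    refine and_congr_right fun _ => and_congr_left fun _ => iff_of_eq (congrArg _ ?_)
    funext i
    rcases i with (_ | i) | i <;> rfl
  by_contra hno
  have hsub : ∀ c, solSet Φ (Sum.elim f fun _ => c) ⊆ solSet θ b := fun c d hd => ((hΦ c d).1 hd).1
  have hco : (solSet θ b \ solSet Φ (Sum.elim f fun _ => x)).Finite := by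
    refine (hD.finite_or Φ _).resolve_left fun hf => hno ?_
    rw [inter_eq_right.2 (hsub x)] at hf
    rw [← hg x, ← algebraic_iff_mem_acl]
    exact Algebraic.of_range_subset (f := Sum.elim f fun _ : Fin 1 => x)
      (by rintro _ ⟨p | p, rfl⟩ <;> [exact ⟨some p, rfl⟩; exact ⟨none, rfl⟩])
      ⟨Φ, (hΦ x y).2 ⟨hy, hψ, hn⟩, hf⟩
  have hdiff : ∀ c, solSet (θA ⊓ Φ.not) (Sum.elim f fun _ => c) =
      solSet θ b \ solSet Φ (Sum.elim f fun _ => c) := fun c => by
    rw [solSet_inf, solSet_not, hθA, Set.sdiff_eq]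
  rw [← hdiff] at hco
  obtain ⟨l, hl⟩ := finite_solSet_iff.1 hco
  let χ : L.Formula (A ⊕ Fin 1) := θ.relabel (Sum.map r id) ⊓ (atLeast l (θA ⊓ Φ.not)).not
  have hχ : ∀ c, c ∈ solSet χ f ↔
      c ∈ solSet θ b ∧ ¬(atLeast l (θA ⊓ Φ.not)).Realize (Sum.elim f fun _ => c) := fun c => by
    simp only [χ, solSet_inf, solSet_not, solSet_relabel, mem_inter_iff, mem_compl_iff]
    exact Iff.rfl
  have hinf : (solSet χ f).Infinite := fun hf => hna ⟨χ, (hχ x).2 ⟨hx, hl⟩, hf⟩
  let z : Fin n → M := fun i => hinf.natEmbedding _ i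
  have hz : Function.Injective z := fun i j h' =>
    Fin.ext ((hinf.natEmbedding _).injective (Subtype.ext h'))
  have hzc : ∀ i, (solSet θ b \ solSet Φ (Sum.elim f fun _ => z i)).Finite := fun i => by
    rw [← hdiff]
    exact finite_solSet_iff.2 ⟨l, ((hχ _).1 (hinf.natEmbedding _ i).2).2⟩
  obtain ⟨d, hd, hd'⟩ := hD.1.exists_notMem_finite (finite_iUnion hzc)
  simp only [mem_iUnion, mem_sdiff, not_exists, not_and, not_not] at hd'
  rcases Nat.eq_zero_or_pos n with rfl | hn0
  · exact hn (realize_atLeast.2 ⟨Fin.elim0, Function.injective_of_subsingleton _,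
      fun i => i.elim0⟩)
  · exact ((hΦ _ d).1 (hd' ⟨0, hn0⟩ hd)).2.2
      (realize_atLeast.2 ⟨z, hz, fun i => ((hΦ _ d).1 (hd' i hd)).2.1⟩)

/-- No member is algebraic over the base and the other members. -/
def IsIndepOver (L : Language.{u, v}) {M : Type w} [L.Structure M] (A I : Set M) : Prop :=
  ∀ x ∈ I, x ∉ acl L (A ∪ I \ {x})

/-- An independent part of a set which spans it over the base. -/
def IsBasisIn (L : Language.{u, v}) {M : Type w} [L.Structure M] (A Y I : Set M) : Prop :=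
  I ⊆ Y ∧ IsIndepOver L A I ∧ Y ⊆ acl L (A ∪ I)

theorem IsIndepOver.subset {A I J : Set M} (h : IsIndepOver L A I) (hJI : J ⊆ I) :
    IsIndepOver L A J :=
  fun x hx hmem => h x (hJI hx)
    (acl_mono (union_subset_union_right A (sdiff_subset_sdiff_left hJI)) hmem)

theorem isIndepOver_of_finite {A I : Set M}
    (h : ∀ F, F ⊆ I → F.Finite → IsIndepOver L A F) : IsIndepOver L A I := by
  classical
  intro x hx hmem
  obtain ⟨F, hF, hFf, hxF⟩ := exists_finite_of_mem_acl hmem
  refine h (insert x (F ∩ I)) (insert_subset hx inter_subset_right)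
    ((hFf.inter_of_left _).insert x) x (mem_insert _ _) (acl_mono (fun z hz => ?_) hxF)
  rcases hF hz with h' | h'
  exacts [.inl h', .inr ⟨mem_insert_of_mem _ ⟨hz, h'.1⟩, h'.2⟩]

theorem IsIndepOver.insert_of_notMem (hD : IsMinimalSet L (solSet θ b)) {A I : Set M}
    (hbA : range b ⊆ A) (h : IsIndepOver L A I) (hI : I ⊆ solSet θ b) {a : M}
    (ha : a ∈ solSet θ b) (hna : a ∉ acl L (A ∪ I)) : IsIndepOver L A (insert a I) := by
  rintro x (rfl | hx) hmem
  · exact hna (acl_mono (union_subset_union_right A (by simp)) hmem)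
  · have hxa : x ≠ a := fun e => hna (subset_acl _ (.inr (e ▸ hx)))
    have e : A ∪ insert a I \ {x} = insert a (A ∪ I \ {x}) := by
      rw [insert_sdiff_of_notMem _ (by simpa using hxa.symm), union_insert]
    rw [e] at hmem
    refine hna (acl_mono ?_ (mem_acl_insert_minimal hD (hbA.trans subset_union_left) ha (hI hx)
      hmem (h x hx)))
    exact insert_subset (.inr hx) (union_subset_union_right A sdiff_subset)

/-- **Bases exist** and extend any independent part. -/
theorem exists_isBasisIn (hD : IsMinimalSet L (solSet θ b)) {A Y I₀ : Set M} (hbA : range b ⊆ A)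
    (hY : Y ⊆ solSet θ b) (hI₀ : IsIndepOver L A I₀) (hI₀Y : I₀ ⊆ Y) :
    ∃ I, I₀ ⊆ I ∧ IsBasisIn L A Y I := by
  obtain ⟨I, hI₀I, hI⟩ := zorn_subset_nonempty {I : Set M | I ⊆ Y ∧ IsIndepOver L A I}
    (fun c hc hchain hne => ⟨⋃₀ c, ⟨sUnion_subset fun I hI => (hc hI).1,
      isIndepOver_of_finite fun F hF hFf => by
        obtain ⟨I, hIc, hFI⟩ :=
          hchain.directedOn.exists_mem_subset_of_finite_of_subset_sUnion hne hFf hF
        exact (hc hIc).2.subset hFI⟩, fun I hI => subset_sUnion_of_mem hI⟩) I₀ ⟨hI₀Y, hI₀⟩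
  refine ⟨I, hI₀I, hI.prop.1, hI.prop.2, fun y hy => by_contra fun hn => hn ?_⟩
  exact subset_acl _ (.inr (hI.le_of_ge ⟨insert_subset hy hI.prop.1, hI.prop.2.insert_of_notMem
    hD hbA (hI.prop.1.trans hY) (hY hy) hn⟩ (subset_insert _ _) (mem_insert _ _)))

/-- **The lemma of Steinitz** in a minimal set. -/
theorem IsIndepOver.ncard_le (hD : IsMinimalSet L (solSet θ b)) {A : Set M} (hbA : range b ⊆ A) :
    ∀ (m : ℕ) {I J : Set M}, IsIndepOver L A J → J ⊆ solSet θ b → I ⊆ solSet θ b → J.Finite →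
      I.Finite → J ⊆ acl L (A ∪ I) → (J \ I).ncard = m → J.ncard ≤ I.ncard := by
  intro m
  induction m using Nat.strong_induction_on with
  | _ m ih =>
    intro I J hJ hJD hID hJf hIf hsub hm
    by_cases hJI : J ⊆ I
    · exact ncard_le_ncard hJI hIf
    obtain ⟨y, hyJ, hyI⟩ := not_subset.1 hJI
    obtain ⟨i, hiI, hi⟩ : ∃ i ∈ I, i ∉ acl L (A ∪ J \ {y}) := by
      by_contra! hall
      exact hJ y hyJ (acl_subset_acl (union_subset (subset_union_left.trans (subset_acl _)) hall)
        (hsub hyJ))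
    have hne : i ∉ J \ {y} := fun h => hi (subset_acl _ (.inr h))
    have hJ' := (hJ.subset sdiff_subset).insert_of_notMem hD hbA (sdiff_subset.trans hJD)
      (hID hiI) hi
    have hlt : (insert i (J \ {y}) \ I).ncard < m := by
      rw [← hm, insert_sdiff_of_mem _ hiI]
      exact ncard_lt_ncard ⟨sdiff_subset_sdiff_left sdiff_subset,
        fun h => (h ⟨hyJ, hyI⟩).1.2 rfl⟩ hJf.sdiff
    have := ih _ hlt hJ' (insert_subset (hID hiI) (sdiff_subset.trans hJD)) hID
      (hJf.sdiff.insert i) hIf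
      (insert_subset (subset_acl _ (.inr hiI)) (sdiff_subset.trans hsub)) rfl
    rw [ncard_insert_of_notMem hne hJf.sdiff, ncard_sdiff_singleton_add_one hyJ hJf] at this
    exact this

/-- An independent set is no larger than a finite spanning one. -/
theorem IsIndepOver.encard_le (hD : IsMinimalSet L (solSet θ b)) {A I J : Set M}
    (hbA : range b ⊆ A) (hJ : IsIndepOver L A J) (hJD : J ⊆ solSet θ b) (hID : I ⊆ solSet θ b)
    (hIf : I.Finite) (hsub : J ⊆ acl L (A ∪ I)) : J.encard ≤ I.encard := by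
  by_contra! hlt
  obtain ⟨F, hFJ, hF⟩ := exists_subset_encard_eq (Order.add_one_le_of_lt hlt)
  have hFf : F.Finite := finite_of_encard_eq_coe (k := I.ncard + 1) (by
    rw [hF, ← hIf.cast_ncard_eq, Nat.cast_add, Nat.cast_one])
  have h := (hJ.subset hFJ).ncard_le hD hbA _ (hFJ.trans hJD) hID hFf hIf (hFJ.trans hsub) rfl
  have e : (F.ncard : ℕ∞) = (I.ncard : ℕ∞) + 1 := by
    rw [hFf.cast_ncard_eq, hF, hIf.cast_ncard_eq]
  have : F.ncard = I.ncard + 1 := by exact_mod_cast e
  omega

/-- Algebraicity is kept by a partial elementary map. -/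
theorem mem_acl_transfer {R : Set (M × N)} (hR : IsPartialElementary L R) {A : Set M}
    (hA : A ⊆ Prod.fst '' R) {a : M} {a' : N} (ha : (a, a') ∈ R) (h : a ∈ acl L A) :
    a' ∈ acl L (Prod.snd '' {p ∈ R | p.1 ∈ A}) := by
  let R' : Set (M × N) := {p ∈ R | p.1 ∈ A}
  obtain ⟨ψ, haψ, hfin⟩ : Algebraic L (fun p : R' => p.1.1) a := by
    refine mem_acl_fst_iff.2 (acl_mono (fun x hx => ?_) h)
    obtain ⟨p, hp, rfl⟩ := hA hx
    exact ⟨p, ⟨hp, hx⟩, rfl⟩
  let r : R' ⊕ Fin 1 → R := Sum.elim (fun p => ⟨p.1, p.2.1⟩) fun _ => ⟨(a, a'), ha⟩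
  have h1 := elemEquiv_realize (hR.comp r) ψ
  have e1 : (fun p : R => p.1.1) ∘ r = Sum.elim (fun p : R' => p.1.1) fun _ => a :=
    funext fun i => by rcases i with i | i <;> rfl
  have e2 : (fun p : R => p.1.2) ∘ r = Sum.elim (fun p : R' => p.1.2) fun _ => a' :=
    funext fun i => by rcases i with i | i <;> rfl
  rw [e1, e2] at h1
  exact mem_acl_snd_iff.1 ⟨ψ, h1.1 haψ,
    (finite_solSet_congr (hR.comp fun p : R' => (⟨p.1, p.2.1⟩ : R)) ψ).1 hfin⟩

/-- The parameters with a map on independent points. -/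
def basisGraph {M N : Type w} {k : ℕ} (b : Fin k → M) (b' : Fin k → N) (I : Set M) (e : I → N) :
    Set (M × N) :=
  paramPairs b b' ∪ range fun x : I => (x.1, e x)

/-- **An injection of independent sets is elementary.** -/
theorem partialElementary_basisGraph (hbb : ElemEquiv L b b') (hD : IsMinimalSet L (solSet θ b))
    {I : Set M} (hID : I ⊆ solSet θ b) (hI : IsIndepOver L (range b) I) {e : I → N}
    (he : Function.Injective e) (heD : range e ⊆ solSet θ b')
    (heI : IsIndepOver L (range b') (range e)) :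
    IsPartialElementary L (basisGraph b b' I e) := by
  classical
  have h₀ := partialElementary_paramPairs hbb
  let Rs : Finset I → Set (M × N) := fun s =>
    paramPairs b b' ∪ (fun x : I => (x.1, e x)) '' s
  have hfin : ∀ s : Finset I, IsPartialElementary L (Rs s) := fun s => by
    induction s using Finset.induction_on with
    | empty => simpa [Rs] using h₀
    | insert x s hxs ih =>
      simp only [Rs, Finset.coe_insert, image_insert_eq, union_insert]
      refine insert_generic_minimal hD ih subset_union_left (hID x.2) (fun hmem => ?_)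
        (heD ⟨x, rfl⟩) fun hmem => ?_
      · refine hI x x.2 (acl_mono ?_ hmem)
        rintro _ ⟨p, ⟨j, rfl⟩ | ⟨z, hz, rfl⟩, rfl⟩
        exacts [.inl ⟨j, rfl⟩, .inr ⟨z.2, fun h => hxs (Subtype.ext h ▸ hz)⟩]
      · refine heI (e x) ⟨x, rfl⟩ (acl_mono ?_ hmem)
        rintro _ ⟨p, ⟨j, rfl⟩ | ⟨z, hz, rfl⟩, rfl⟩
        exacts [.inl ⟨j, rfl⟩, .inr ⟨⟨z, rfl⟩, fun h => hxs (he h ▸ hz)⟩]
  have e₀ : basisGraph b b' I e = ⋃₀ range Rs := by
    refine Subset.antisymm ?_ (sUnion_subset ?_)
    · rintro p (hp | ⟨x, rfl⟩)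
      · exact ⟨_, ⟨∅, rfl⟩, .inl hp⟩
      · exact ⟨_, ⟨{x}, rfl⟩, .inr ⟨x, by simp, rfl⟩⟩
    · rintro _ ⟨s, rfl⟩
      exact union_subset_union_right _ (image_subset_range _ _)
  rw [e₀]
  refine partialElementary_sUnion (directedOn_range.2 fun s s' => ⟨s ∪ s', ?_, ?_⟩)
    (range_nonempty _) (by rintro _ ⟨s, rfl⟩; exact hfin s) <;>
    exact union_subset_union_right _ (image_mono (by simp))

end FA.CountableModels
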