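import Fermat.Agent.CountableModels.Geometry

/-!
# Submodels around a minimal set

Atomic submodels inside a submodel, algebraicity of isolated points of a minimal set, and the
way an elementary submodel is isolated over its part of the minimal set.
-/

set_option autoImplicit false

universe u v w x

namespace FA.CountableModels

open FirstOrder Language Cardinal Set FA.Morley FA.StronglyMinimal FA.TwoCardinal

variable {L : Language.{u, v}} {T : L.Theory} {M : Type w} [L.Structure M] {N : Type w}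
  [L.Structure N] {k : ℕ} {θ : L.Formula (Fin k ⊕ Fin 1)} {b : Fin k → M}

theorem mem_solSet_map_iff {P : Type x} (e : M ↪ₑ[L] N) (ψ : L.Formula (P ⊕ Fin 1))
    (f : P → M) (a : M) : e a ∈ solSet ψ (e ∘ f) ↔ a ∈ solSet ψ f := by
  rw [mem_solSet, mem_solSet,
    show Sum.elim (e ∘ f) (fun _ : Fin 1 => e a) = e ∘ Sum.elim f (fun _ => a) from
      (Sum.comp_elim _ _ _).symm, e.map_formula]

/-- Elementary embeddings keep isolation. -/
theorem isolated_map {P : Type x} (e : M ↪ₑ[L] N) {f : P → M} {n : ℕ} {a : Fin n → M}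
    (h : Isolated L f a) : Isolated L (e ∘ f) (e ∘ a) := by
  obtain ⟨χ, ha, hχ⟩ := h
  refine ⟨χ, by rw [← Sum.comp_elim, e.map_formula]; exact ha, fun c hc m φ idx => ?_⟩
  have key : ∀ φ : L.Formula (Fin m), φ.Realize (Sum.elim f a ∘ idx) →
      φ.Realize (Sum.elim (e ∘ f) c ∘ idx) := fun φ hφ => by
    let Φ : L.Formula P := (χ ⊓ (φ.relabel idx).not).iExs (Fin n)
    by_contra hn
    have hN : Φ.Realize (e ∘ f) := Formula.realize_iExs.2 ⟨c, Formula.realize_inf.2
      ⟨hc, Formula.realize_not.2 fun h' => hn (Formula.realize_relabel.1 h')⟩⟩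
    rw [e.map_formula] at hN
    obtain ⟨z, hz⟩ := Formula.realize_iExs.1 hN
    rw [Formula.realize_inf, Formula.realize_not, Formula.realize_relabel] at hz
    exact hz.2 ((hχ z hz.1 m φ idx).1 hφ)
  have he : Sum.elim (e ∘ f) (e ∘ a) ∘ idx = e ∘ (Sum.elim f a ∘ idx) := by
    rw [← Sum.comp_elim, Function.comp_assoc]
  rw [he, e.map_formula]
  exact ⟨key φ, fun hc' => by_contra fun ha' =>
    Formula.realize_not.1 (key φ.not (Formula.realize_not.2 ha')) hc'⟩

/-- A submodel inside another is a submodel of it. -/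
theorem exists_restrict (S S' : L.ElementarySubstructure M) (hsub : (S' : Set M) ⊆ S) :
    ∃ S'' : L.ElementarySubstructure S,
      (S'' : Set S) = (Subtype.val : S → M) ⁻¹' (S' : Set M) := by
  let g : ↥(S' : Set M) → S := fun s => ⟨s.1, hsub s.2⟩
  obtain ⟨S'', hS''⟩ := exists_elementary_range (L := L) g fun φ ⟨a, ha⟩ => by
    have hM := (S.subtype.map_formula φ.2.1 (Fin.snoc (g ∘ φ.2.2) a)).2 ha
    rw [Fin.comp_snoc] at hM
    obtain ⟨c, hc, hc'⟩ := exists_mem_holds S' φ (f := Subtype.val) (fun j => (φ.2.2 j).2)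
      ⟨_, hM⟩
    refine ⟨⟨c, hc⟩, ?_⟩
    show φ.2.1.Realize _
    rw [← S.subtype.map_formula, Fin.comp_snoc]
    exact hc'
  refine ⟨S'', hS''.trans (Set.ext fun s => ⟨?_, fun hs => ⟨⟨s.1, hs⟩, rfl⟩⟩)⟩
  rintro ⟨t, rfl⟩
  exact t.2

/-- Isolated tuples give isolated points over a larger family. -/
theorem isolated_of_snoc {P Q : Type*} {f : P → M} {g : Q → M} {n : ℕ} {w : Fin n → M} {a : M}
    (h : Isolated L f (Fin.snoc w a : Fin (n + 1) → M)) (hf : range f ⊆ range g)
    (hw : range w ⊆ range g) (hg : range g ⊆ range f ∪ range w) :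
    Isolated L g (fun _ : Fin 1 => a) := by
  obtain ⟨χ, ha, hχ⟩ := h
  choose r hr using fun p => hf (mem_range_self p)
  choose r' hr' using fun i => hw (mem_range_self i)
  let σ : P ⊕ Fin (n + 1) → Q ⊕ Fin 1 :=
    Sum.elim (Sum.inl ∘ r) (Fin.lastCases (Sum.inr 0) fun i => Sum.inl (r' i))
  have hσ : ∀ c : M, Sum.elim g (fun _ : Fin 1 => c) ∘ σ = Sum.elim f (Fin.snoc w c) :=
    fun c => funext fun i => by
    rcases i with p | i
    · exact hr p
    · induction i using Fin.lastCases with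
      | last => simp [σ]
      | cast i => simp [σ, hr']
  have hback : ∀ q, ∃ i : P ⊕ Fin (n + 1), ∀ c : M, Sum.elim f (Fin.snoc w c) i = g q := fun q => by
    rcases hg (mem_range_self q) with ⟨p, hp⟩ | ⟨i, hi⟩
    exacts [⟨.inl p, fun _ => hp⟩, ⟨.inr i.castSucc, fun _ => by simpa using hi⟩]
  choose s hs using hback
  refine ⟨χ.relabel σ, ?_, fun c hc => ?_⟩
  · rw [Formula.realize_relabel, hσ]
    exact ha
  · obtain ⟨c, rfl⟩ : ∃ c' : M, (fun _ => c') = c :=
      ⟨c 0, funext fun i => by rw [Fin.fin_one_eq_zero i]⟩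
    rw [Formula.realize_relabel, hσ] at hc
    have h' := (hχ _ hc).comp (Sum.elim s fun _ : Fin 1 => Sum.inr (Fin.last n))
    convert h' using 1 <;> refine funext fun i => ?_ <;> rcases i with q | i <;>
      simp [hs]

/-- A partial elementary map extends by an isolated point inside a submodel. -/
theorem exists_insert_isolated {R : Set (M × N)} (hR : IsPartialElementary L R) {a : M}
    (ha : Isolated L (fun p : R => p.1.1) (fun _ : Fin 1 => a))
    (S' : L.ElementarySubstructure N) (hsnd : Prod.snd '' R ⊆ S') :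
    ∃ a' ∈ S', IsPartialElementary L (insert (a, a') R) := by
  obtain ⟨χ, hχa, hχ⟩ := ha
  obtain ⟨a', ha'S, ha'⟩ := exists_mem_holds S' (toPFormula χ) (f := fun p : R => p.1.2)
    (fun j => hsnd ⟨_, Subtype.property _, rfl⟩)
    ((hR.exists_holds _).1 ⟨a, (holds_toPFormula χ _ a).2 hχa⟩)
  rw [holds_toPFormula] at ha'
  have key : ∀ ψ : L.Formula (R ⊕ Fin 1), a ∈ solSet ψ (fun p : R => p.1.1) →
      a' ∈ solSet ψ fun p : R => p.1.2 := fun ψ hψ =>
    (subset_solSet_congr hR χ ψ).1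
      (fun c hc => (elemEquiv_realize (hχ _ hc) ψ).1 hψ) ha'
  refine ⟨a', ha'S,
    IsPartialElementary.insert_pair fun ψ => ⟨key ψ, fun h => by_contra fun hn => ?_⟩⟩
  exact Formula.realize_not.1 (key ψ.not (Formula.realize_not.2 hn)) h

/-- An isolated point of a minimal set is algebraic if the base has enough algebraic points. -/
theorem mem_acl_of_isolated (hD : IsMinimalSet L (solSet θ b)) {C : Set M} (hbC : range b ⊆ C)
    (hinf : (acl L C ∩ solSet θ b).Infinite) {e : M} (he : e ∈ solSet θ b)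
    (hiso : Isolated L (Subtype.val : C → M) (fun _ : Fin 1 => e)) : e ∈ acl L C := by
  obtain ⟨χ, hχe, hχ⟩ := hiso
  have hθC : solSet (θ.relabel (Sum.map (fun j => (⟨b j, hbC ⟨j, rfl⟩⟩ : C)) id))
      (Subtype.val : C → M) = solSet θ b := solSet_relabel _ θ _
  rcases hD.finite_or χ (Subtype.val : C → M) with hf | hf
  · exact ⟨_, (solSet_inf _ χ _).ge ⟨hθC.ge he, hχe⟩, by rw [solSet_inf, hθC]; exact hf⟩
  · obtain ⟨c, hc, hcn⟩ := hinf.exists_notMem_finite hf
    obtain ⟨ψ, hψc, hψf⟩ := hc.1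
    exact ⟨ψ, (elemEquiv_realize (hχ (fun _ => c) (by_contra fun h => hcn ⟨hc.2, h⟩)) ψ).2 hψc,
      hψf⟩

/-- A tuple isolated over the minimal set adds no algebraic points of the minimal set. -/
theorem inter_acl_subset {C : Set M} (hbC : range b ⊆ C) {n : ℕ} {F : Fin n → M}
    {χ : L.Formula (C ⊕ Fin n)} (hF : χ.Realize (Sum.elim Subtype.val F))
    (hχ : ∀ F', χ.Realize (Sum.elim Subtype.val F') →
      ElemEquiv L (Sum.elim (Subtype.val : ↥(C ∪ solSet θ b) → M) F)
        (Sum.elim Subtype.val F')) :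
    solSet θ b ∩ acl L (C ∪ range F) ⊆ acl L C := by
  rintro e ⟨he, hea⟩
  obtain ⟨ξ, hξe, hξf⟩ := Algebraic.of_range_subset (g := Sum.elim (Subtype.val : C → M) F)
    (by rw [Sum.elim_range, Subtype.range_coe, Subtype.range_coe]) hea
  let θC : L.Formula (C ⊕ Fin 1) :=
    θ.relabel (Sum.map (fun j => (⟨b j, hbC ⟨j, rfl⟩⟩ : C)) id)
  let ρ : L.Formula (C ⊕ Fin 1) := θC ⊓ (((χ.relabel (Sum.map Sum.inl id) :
      L.Formula ((C ⊕ Fin 1) ⊕ Fin n)) ⊓ (ξ.relabel
        (Sum.elim (Sum.map Sum.inl id) fun _ => Sum.inl (Sum.inr 0))).not).iExs (Fin n)).not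
  have hρ : ∀ y, y ∈ solSet ρ (Subtype.val : C → M) ↔ y ∈ solSet θ b ∧
      ∀ F', χ.Realize (Sum.elim Subtype.val F') →
        y ∈ solSet ξ (Sum.elim (Subtype.val : C → M) F') := by
    intro y
    have hθC : solSet θC (Subtype.val : C → M) = solSet θ b := solSet_relabel _ θ _
    simp only [ρ, solSet_inf, hθC, mem_inter_iff, solSet_not, mem_compl_iff]
    simp only [mem_solSet, Formula.realize_iExs, Formula.realize_inf, Formula.realize_not,
      Formula.realize_relabel, not_exists, not_and, not_not, Sum.elim_comp_map, Function.comp_id,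
      Sum.elim_comp_inl]
    refine and_congr_right fun _ => forall_congr' fun F' => imp_congr_right fun _ =>
      iff_of_eq (congrArg _ (funext fun i => ?_))
    rcases i with (c | j) | j <;> rfl
  refine ⟨ρ, (hρ e).2 ⟨he, fun F' hF' => ?_⟩, hξf.subset fun y hy => ((hρ y).1 hy).2 F hF⟩
  let r : (C ⊕ Fin n) ⊕ Fin 1 → ↥(C ∪ solSet θ b) ⊕ Fin n := Sum.elim
    (Sum.map (fun c => ⟨c.1, .inl c.2⟩) id) fun _ => Sum.inl ⟨e, .inr he⟩
  have h := elemEquiv_realize ((hχ F' hF').comp r) ξ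
  have er : ∀ G : Fin n → M, Sum.elim (Subtype.val : ↥(C ∪ solSet θ b) → M) G ∘ r =
      Sum.elim (Sum.elim (Subtype.val : C → M) G) fun _ => e :=
    fun G => funext fun i => by rcases i with (c | j) | j <;> rfl
  rw [er, er] at h
  exact h.1 hξe

/-- **Isolation over a part of the minimal set is isolation over all of it.** -/
theorem elemEquiv_union_solSet (S : L.ElementarySubstructure M) {C : Set M} (hbC : range b ⊆ C)
    (hCS : C ⊆ S) (hDC : solSet θ b ∩ S ⊆ C) {n : ℕ} {a : Fin n → M}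
    {χ : L.Formula (C ⊕ Fin n)} (ha : χ.Realize (Sum.elim Subtype.val a))
    (hχ : ∀ c, χ.Realize (Sum.elim Subtype.val c) →
      ElemEquiv L (Sum.elim (Subtype.val : C → M) a) (Sum.elim Subtype.val c))
    (a' : Fin n → M) (ha' : χ.Realize (Sum.elim Subtype.val a')) :
    ElemEquiv L (Sum.elim (Subtype.val : ↥(C ∪ solSet θ b) → M) a)
      (Sum.elim Subtype.val a') := by
  classical
  intro m φ idx
  suffices key : ∀ φ : L.Formula (Fin m),
      φ.Realize (Sum.elim (Subtype.val : ↥(C ∪ solSet θ b) → M) a ∘ idx) →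
      φ.Realize (Sum.elim (Subtype.val : ↥(C ∪ solSet θ b) → M) a' ∘ idx) from
    ⟨key φ, fun h => by_contra fun hn =>
      Formula.realize_not.1 (key φ.not (Formula.realize_not.2 hn)) h⟩
  intro φ hφ
  by_contra hn
  -- the parameters outside the base become variables ranging over the minimal set
  let isVar : Fin m → Prop := fun j => ∃ p : ↥(C ∪ solSet θ b), idx j = .inl p ∧ p.1 ∉ C
  let loc : Fin m → (C ⊕ Fin m) ⊕ Fin n := fun j => (idx j).elim
    (fun p => if h : p.1 ∈ C then .inl (.inl ⟨p.1, h⟩) else .inl (.inr j)) .inr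
  let inner : L.Formula ((C ⊕ Fin m) ⊕ Fin n) → L.Formula (C ⊕ Fin m) := fun ψ =>
    ((χ.relabel (Sum.map Sum.inl id) : L.Formula ((C ⊕ Fin m) ⊕ Fin n)) ⊓ ψ).iExs (Fin n)
  let Ψ : L.Formula C := ((Formula.iInf fun j : {j // isVar j} => θ.relabel
      (Sum.elim (fun i => Sum.inl ⟨b i, hbC ⟨i, rfl⟩⟩) fun _ => Sum.inr j.1)) ⊓
    (inner (φ.relabel loc) ⊓ inner (φ.relabel loc).not)).iExs (Fin m)
  have hΨ : ∀ (y : Fin m → M), ((∀ j, isVar j → y j ∈ solSet θ b) ∧
      (∃ c, χ.Realize (Sum.elim Subtype.val c) ∧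
        φ.Realize (Sum.elim (Sum.elim Subtype.val y) c ∘ loc)) ∧
      ∃ c, χ.Realize (Sum.elim Subtype.val c) ∧
        ¬φ.Realize (Sum.elim (Sum.elim Subtype.val y) c ∘ loc)) ↔
      ((Formula.iInf fun j : {j // isVar j} => θ.relabel
        (Sum.elim (fun i => Sum.inl (⟨b i, hbC ⟨i, rfl⟩⟩ : C)) fun _ => Sum.inr j.1)) ⊓
      (inner (φ.relabel loc) ⊓ inner (φ.relabel loc).not)).Realize
        (Sum.elim Subtype.val y) := fun y => by
    simp only [inner, Formula.realize_inf, Formula.realize_iInf, Formula.realize_iExs,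
      Formula.realize_relabel, Formula.realize_not, Subtype.forall, mem_solSet,
      Sum.elim_comp_map, Function.comp_id, Sum.elim_comp_inl]
    refine and_congr_left fun _ => forall₂_congr fun j _ =>
      iff_of_eq (congrArg _ (funext fun i => ?_))
    rcases i with i | i <;> rfl
  let y₀ : Fin m → M := Sum.elim (Subtype.val : ↥(C ∪ solSet θ b) → M) a ∘ idx
  have hloc : ∀ (c : Fin n → M) (y : Fin m → M),
      (∀ j, isVar j → y j = y₀ j) → Sum.elim (Sum.elim (Subtype.val : C → M) y) c ∘ loc =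
        Sum.elim (Subtype.val : ↥(C ∪ solSet θ b) → M) c ∘ idx := fun c y hy => funext fun j => by
    rcases hj : idx j with p | i
    · by_cases hp : p.1 ∈ C
      · simp [loc, hj, hp]
      · simp [loc, y₀, hj, hp, hy j ⟨p, hj, hp⟩]
    · simp [loc, hj]
  have hM : Ψ.Realize (Subtype.val : C → M) := by
    refine Formula.realize_iExs.2 ⟨y₀, (hΨ y₀).1 ⟨fun j ⟨p, hp, hpC⟩ => ?_, ⟨a, ha, ?_⟩,
      a', ha', ?_⟩⟩
    · simp only [y₀, Function.comp_apply, hp, Sum.elim_inl]
      exact p.2.resolve_left hpC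
    · rw [hloc a y₀ fun _ _ => rfl]
      exact hφ
    · rw [hloc a' y₀ fun _ _ => rfl]
      exact hn
  let g : C → S := fun c => ⟨c.1, hCS c.2⟩
  rw [show (Subtype.val : C → M) = S.subtype ∘ g from rfl, S.subtype.map_formula] at hM
  obtain ⟨y, hy⟩ := Formula.realize_iExs.1 hM
  rw [← S.subtype.map_formula, Sum.comp_elim] at hy
  obtain ⟨hyD, ⟨c₁, hc₁, h₁⟩, c₂, hc₂, h₂⟩ := (hΨ (S.subtype ∘ y)).2 hy
  -- now all parameters are in the base
  have hmem : ∀ j, ∃ i : C ⊕ Fin n, ∀ c : Fin n → M, Sum.elim (Subtype.val : C → M) c i =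
      (Sum.elim (Sum.elim (Subtype.val : C → M) (S.subtype ∘ y)) c ∘ loc) j := fun j => by
    rcases hj : idx j with p | i
    · by_cases hp : p.1 ∈ C
      · exact ⟨.inl ⟨p.1, hp⟩, fun c => by simp [loc, hj, hp]⟩
      · exact ⟨.inl ⟨(y j).1, hDC ⟨hyD j ⟨p, hj, hp⟩, (y j).2⟩⟩, fun c => by simp [loc, hj, hp]⟩
    · exact ⟨.inr i, fun c => by simp [loc, hj]⟩
  choose s hs using hmem
  have e := ((hχ c₁ hc₁).symm.trans (hχ c₂ hc₂)) m φ s
  rw [show Sum.elim (Subtype.val : C → M) c₁ ∘ s = _ from funext fun j => hs j c₁,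
    show Sum.elim (Subtype.val : C → M) c₂ ∘ s = _ from funext fun j => hs j c₂] at e
  exact h₂ (e.1 h₁)

section Models

variable {K : Theory.ModelType.{u, v, max u v} T} {θ : L.Formula (Fin k ⊕ Fin 1)} {b : Fin k → K}

/-- **Atomic submodels inside a submodel.** -/
theorem exists_atomic_within (hst : IsOmegaStable T) (S : L.ElementarySubstructure K) {C : Set K}
    (hCS : C ⊆ S) [Nonempty S] :
    ∃ S' : L.ElementarySubstructure K, C ⊆ S' ∧ (S' : Set K) ⊆ S ∧
      ∀ (n : ℕ) (a : Fin n → K), (∀ i, a i ∈ S') → Isolated L (Subtype.val : C → K) a := by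
  let g : C → Theory.ModelType.of T S := fun c => ⟨c.1, hCS c.2⟩
  obtain ⟨S₁, hgS₁, hS₁⟩ := exists_atomic hst (Theory.ModelType.of T S) g
  let toK : ↥(S₁ : Set (Theory.ModelType.of T S)) → K := fun s => Subtype.val (p := (· ∈ S)) s.1
  obtain ⟨S', hS'⟩ := exists_elementary_range (L := L) toK fun φ ⟨a, ha⟩ => by
    obtain ⟨c, hc, hc'⟩ := exists_mem_holds S φ (f := toK) (fun j => (φ.2.2 j).1.2) ⟨a, ha⟩
    have hiff := fun x : Theory.ModelType.of T S =>
      (elemEquiv_map (M := Theory.ModelType.of T S) S.subtype id).holds_iff φ Subtype.val x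
    obtain ⟨x, hx, hx'⟩ := exists_mem_holds S₁ φ (f := Subtype.val) (fun j => (φ.2.2 j).2)
      ⟨⟨c, hc⟩, (hiff ⟨c, hc⟩).2 hc'⟩
    exact ⟨⟨x, hx⟩, (hiff x).1 hx'⟩
  have hmem : ∀ {x : K}, x ∈ S' ↔ ∃ h : x ∈ S, (⟨x, h⟩ : S) ∈ S₁ := fun {x} => by
    rw [← SetLike.mem_coe, hS']
    exact ⟨by rintro ⟨s, rfl⟩; exact ⟨s.1.2, s.2⟩, fun ⟨h, h'⟩ => ⟨⟨⟨x, h⟩, h'⟩, rfl⟩⟩
  refine ⟨S', fun c hc => hmem.2 ⟨hCS hc, hgS₁ ⟨⟨c, hc⟩, rfl⟩⟩, fun x hx => (hmem.1 hx).1,
    fun n a ha => ?_⟩
  choose h h' using fun i => hmem.1 (ha i)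
  exact isolated_map S.subtype (hS₁ n (fun i => ⟨a i, h i⟩) h')

/-- A submodel with the same part of a minimal set is the same, without Vaughtian pairs. -/
theorem eq_of_inter_subset (hVP : ¬HasVaughtianPair T) (S S' : L.ElementarySubstructure K)
    [Nonempty S] (hsub : (S' : Set K) ⊆ S) (hb : ∀ j, b j ∈ S')
    (hinf : (solSet θ b ∩ S).Infinite) (hD : solSet θ b ∩ S ⊆ S') : (S' : Set K) = S := by
  obtain ⟨S'', hS''⟩ := exists_restrict S S' hsub
  let N := Theory.ModelType.of T S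
  let b₁ : Fin k → N := fun j => ⟨b j, hsub (hb j)⟩
  have hsol : solSet θ b₁ = (Subtype.val : S → K) ⁻¹' solSet θ b :=
    Set.ext fun y => (mem_solSet_map_iff S.subtype θ b₁ y).symm
  have huniv := eq_univ_of_not_hasVaughtianPair hVP N S'' (θ := θ) (b := b₁)
    (hsol ▸ Set.Infinite.preimage' (f := (Subtype.val : S → K)) (by rwa [Subtype.range_coe]))
    (fun j => hS''.ge (hb j)) fun y hy => hS''.ge (hD ⟨hsol.le hy, y.2⟩)
  exact hsub.antisymm fun x hx => hS''.le (huniv.ge (mem_univ (⟨x, hx⟩ : S)))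

/-- **A submodel is isolated over its part of the minimal set**, also over all of that set. -/
theorem exists_isolating_over_minimal (hst : IsOmegaStable T) (hVP : ¬HasVaughtianPair T)
    (S : L.ElementarySubstructure K) [Nonempty S] (hb : ∀ j, b j ∈ S)
    (hinf : (solSet θ b ∩ S).Infinite) {n : ℕ} (a : Fin n → K) (ha : ∀ i, a i ∈ S) :
    ∃ χ : L.Formula (↥(range b ∪ solSet θ b ∩ S) ⊕ Fin n),
      χ.Realize (Sum.elim Subtype.val a) ∧ ∀ a', χ.Realize (Sum.elim Subtype.val a') →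
        ElemEquiv L (Sum.elim (Subtype.val : ↥((range b ∪ solSet θ b ∩ S) ∪ solSet θ b) → K) a)
          (Sum.elim Subtype.val a') := by
  have hC : range b ∪ solSet θ b ∩ S ⊆ S := union_subset (range_subset_iff.2 hb) inter_subset_right
  obtain ⟨S', hCS', hS'S, hiso⟩ := exists_atomic_within hst S hC
  have e := eq_of_inter_subset hVP S S' hS'S (fun j => hCS' (.inl ⟨j, rfl⟩)) hinf
    (subset_union_right.trans hCS')
  obtain ⟨χ, hχa, hχ⟩ := hiso n a fun i => e.ge (ha i)
  exact ⟨χ, hχa, elemEquiv_union_solSet S subset_union_left hC subset_union_right hχa hχ⟩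

/-- Over a submodel, points of the minimal set algebraic with further ones are algebraic over
the part of the minimal set. -/
theorem inter_acl_submodel_subset (hst : IsOmegaStable T) (hVP : ¬HasVaughtianPair T)
    (S : L.ElementarySubstructure K) [Nonempty S] (hb : ∀ j, b j ∈ S)
    (hinf : (solSet θ b ∩ S).Infinite) {X : Set K} (hX : X ⊆ solSet θ b) :
    solSet θ b ∩ acl L ((S : Set K) ∪ X) ⊆ acl L (range b ∪ solSet θ b ∩ S ∪ X) := by
  classical
  rintro e ⟨he, hea⟩
  obtain ⟨F, hF, hFf, heF⟩ := exists_finite_of_mem_acl hea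
  let W := (hFf.inter_of_left (S : Set K)).toFinset
  let a : Fin W.card → K := fun i => (W.equivFin.symm i).1
  obtain ⟨χ, hχa, hχ⟩ := exists_isolating_over_minimal hst hVP S hb hinf a fun i =>
    ((hFf.inter_of_left _).mem_toFinset.1 (W.equivFin.symm i).2).2
  let C := range b ∪ solSet θ b ∩ S ∪ X
  let inc : ↥(range b ∪ solSet θ b ∩ S) → C := fun c => ⟨c.1, .inl c.2⟩
  refine inter_acl_subset (C := C) (χ := χ.relabel (Sum.map inc id)) (F := a)
    (subset_union_left.trans subset_union_left) ?_ (fun F' hF' => ?_)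
    ⟨he, acl_mono (fun x hx => ?_) heF⟩
  · rw [Formula.realize_relabel, Sum.elim_comp_map, Function.comp_id]
    exact hχa
  · rw [Formula.realize_relabel, Sum.elim_comp_map, Function.comp_id] at hF'
    let r : ↥(C ∪ solSet θ b) → ↥(range b ∪ solSet θ b ∩ S ∪ solSet θ b) := fun p =>
      ⟨p.1, p.2.elim (fun h => h.elim Or.inl fun h' => .inr (hX h')) Or.inr⟩
    have h := (hχ F' hF').comp (Sum.map r id)
    rwa [Sum.elim_comp_map, Sum.elim_comp_map, Function.comp_id, Function.comp_id] at h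
  · by_cases hxS : x ∈ (S : Set K)
    · exact .inr ⟨W.equivFin ⟨x, (hFf.inter_of_left _).mem_toFinset.2 ⟨hx, hxS⟩⟩, by simp [a]⟩
    · exact .inl (.inr ((hF hx).resolve_left hxS))

end Models

end FA.CountableModels
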