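import Fermat.Agent.CountableModels.Difference

/-!
# Independence of the parameters

Along the translates of an elementary permutation of a countable set some partial type of the
parameters has only finitely many completions, so the difference of two dimensions vanishes.
-/

set_option autoImplicit false

universe u v w

namespace FA.CountableModels

open FirstOrder Language Cardinal Set FA.Morley FA.StronglyMinimal FA.TwoCardinal

variable {L : Language.{u, v}} {T : L.Theory} {M : Theory.ModelType.{u, v, max u v} T} {A : Set M}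

/-- Saturation over countable sets. -/
theorem isRichSet_univ_of_isSaturated (hsat : IsSaturated L (ℵ_ 1) M) :
    IsRichSet L (Set.univ : Set M) := fun B _ hB p hp =>
  (hsat B (hB.le_aleph0.trans_lt (aleph_one_le_iff.1 le_rfl)) p hp).imp fun _ h => ⟨trivial, h⟩

/-- The type of a tuple over a set. -/
def tupleType {n : ℕ} (A : Set M) (c : Fin n → M) : Set (L.Formula (A ⊕ Fin n)) :=
  {φ | φ.Realize (Sum.elim Subtype.val c)}

/-- **Countably many types of tuples** over a countable set are realised. -/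
theorem countable_range_tupleType (hst : IsOmegaStable T) (hsat : IsSaturated L (ℵ_ 1) M)
    (hA : A.Countable) : ∀ n : ℕ, (range (tupleType (L := L) (n := n) A)).Countable
  | 0 => (subsingleton_range _).countable
  | n + 1 => by
    have := hA.to_subtype
    have hS := countable_range_tupleType hst hsat hA n
    choose rep hrep using fun s : range (tupleType (L := L) (n := n) A) => s.2
    let σ : A ⊕ Fin (n + 1) → (A ⊕ Fin n) ⊕ Fin 1 :=
      Sum.elim (Sum.inl ∘ Sum.inl) (Fin.lastCases (Sum.inr 0) fun i => Sum.inl (Sum.inr i))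
    let G : Set (PFormula L (A ⊕ Fin n)) → Set (L.Formula (A ⊕ Fin (n + 1))) := fun p =>
      {φ | toPFormula (φ.relabel σ) ∈ p}
    have := hS.to_subtype
    refine (countable_iUnion fun s => (hst.countable_typesOver M
      (Sum.elim (Subtype.val : A → M) (rep s))).image G).mono ?_
    rintro _ ⟨c, rfl⟩
    let s : range (tupleType (L := L) (n := n) A) := ⟨_, c ∘ Fin.castSucc, rfl⟩
    have hE : ElemEquiv L (Sum.elim (Subtype.val : A → M) (c ∘ Fin.castSucc))
        (Sum.elim Subtype.val (rep s)) := fun m φ idx => by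
      rw [← Formula.realize_relabel, ← Formula.realize_relabel]
      exact (Set.ext_iff.1 (hrep s) (φ.relabel idx)).symm
    obtain ⟨d, hd⟩ := hE.exists_extend hsat
      (mk_le_aleph0.trans_lt (aleph_one_le_iff.1 le_rfl)) (c (Fin.last n))
    refine mem_iUnion.2 ⟨s, _, isType_typeAt (Sum.elim (Subtype.val : A → M) (rep s)) d, ?_⟩
    ext φ
    have h1 : toPFormula (φ.relabel σ) ∈ typeAt L (Sum.elim (Subtype.val : A → M) (rep s)) d ↔
        Holds (Sum.elim (Subtype.val : A → M) (c ∘ Fin.castSucc)) (toPFormula (φ.relabel σ))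
          (c (Fin.last n)) :=
      (hd.holds_iff (toPFormula (φ.relabel σ)) some none).symm
    refine h1.trans ?_
    rw [holds_toPFormula, Formula.realize_relabel]
    refine iff_of_eq (congrArg φ.Realize (funext fun i => ?_))
    rcases i with p | i
    · rfl
    · induction i using Fin.lastCases <;> simp [σ]

/-- Every finite part has a solution. -/
def IsFinSat {n : ℕ} (A : Set M) (Γ : Set (L.Formula (A ⊕ Fin n))) : Prop :=
  ∀ s : Finset (L.Formula (A ⊕ Fin n)), (s : Set _) ⊆ Γ →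
    ∃ c : Fin n → M, ∀ φ ∈ s, φ.Realize (Sum.elim Subtype.val c)

/-- A partial type over a countable set has a solution. -/
theorem IsFinSat.exists_realize (hsat : IsSaturated L (ℵ_ 1) M) (hA : A.Countable) {n : ℕ}
    {Γ : Set (L.Formula (A ⊕ Fin n))} (h : IsFinSat A Γ) :
    ∃ c : Fin n → M, ∀ φ ∈ Γ, φ.Realize (Sum.elim Subtype.val c) := by
  classical
  have := hA.to_subtype
  let diag : Set (L.Formula (A ⊕ Fin n)) :=
    {ψ | ∀ c : Fin n → M, ψ.Realize (Sum.elim Subtype.val c)}
  obtain ⟨K, z, hz⟩ := Interpolation.exists_realize T (Γ ∪ diag) fun s hs => by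
    obtain ⟨c, hc⟩ := h (s.filter (· ∈ Γ)) fun φ hφ => (Finset.mem_filter.1 hφ).2
    refine ⟨M, Sum.elim Subtype.val c, fun φ hφ => ?_⟩
    rcases hs hφ with h' | h'
    exacts [hc φ (Finset.mem_filter.2 ⟨hφ, h'⟩), h' c]
  have hE : ElemEquiv L (z ∘ Sum.inl) (Subtype.val : A → M) := fun m φ idx => by
    have key : ∀ φ : L.Formula (Fin m), φ.Realize ((Subtype.val : A → M) ∘ idx) →
        φ.Realize ((z ∘ Sum.inl) ∘ idx) := fun φ hφ => by
      have := hz (φ.relabel (Sum.inl ∘ idx)) (.inr fun c => by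
        rw [Formula.realize_relabel, ← Function.comp_assoc, Sum.elim_comp_inl]
        exact hφ)
      rwa [Formula.realize_relabel, ← Function.comp_assoc] at this
    exact ⟨fun hz' => by_contra fun hn =>
      Formula.realize_not.1 (key φ.not (Formula.realize_not.2 hn)) hz', key φ⟩
  obtain ⟨c, hc⟩ := hE.exists_extend_fin hsat n (z ∘ Sum.inr)
  refine ⟨c, fun φ hφ => ?_⟩
  rw [← elemEquiv_realize hc, Sum.elim_comp_inl_inr]
  exact hz φ (.inl hφ)

/-- A permutation by an elementary map has all powers elementary. -/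
theorem elemEquiv_zpow (σ : Equiv.Perm A)
    (hσ : ElemEquiv L (Subtype.val : A → M) (Subtype.val ∘ σ)) :
    ∀ l : ℤ, ElemEquiv L (Subtype.val : A → M) (Subtype.val ∘ ⇑(σ ^ l)) := by
  intro l
  induction l using Int.induction_on with
  | zero => simp [elemEquiv_refl]
  | succ i ih =>
    rw [zpow_add_one, Equiv.Perm.coe_mul, ← Function.comp_assoc]
    exact hσ.trans (ih.comp σ)
  | pred i ih =>
    rw [zpow_sub_one, Equiv.Perm.coe_mul, ← Function.comp_assoc]
    refine ElemEquiv.trans ?_ (ih.comp ⇑σ⁻¹)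
    have h := hσ.comp ⇑σ⁻¹
    rw [Function.comp_assoc, ← Equiv.Perm.coe_mul, mul_inv_cancel, Equiv.Perm.coe_one,
      Function.comp_id] at h
    exact h.symm

/-- Some partial type beyond the given one has one completion in some neighbourhood. -/
theorem exists_unique_completion (hst : IsOmegaStable T) (hsat : IsSaturated L (ℵ_ 1) M)
    (hA : A.Countable) {n : ℕ} {Γ : Set (L.Formula (A ⊕ Fin n))} (hΓ : IsFinSat A Γ) :
    ∃ φ, IsFinSat A (insert φ Γ) ∧ ∀ c c' : Fin n → M,
      (∀ ψ ∈ insert φ Γ, ψ.Realize (Sum.elim Subtype.val c)) →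
      (∀ ψ ∈ insert φ Γ, ψ.Realize (Sum.elim Subtype.val c')) →
      ElemEquiv L (Sum.elim (Subtype.val : A → M) c) (Sum.elim Subtype.val c') := by
  classical
  by_contra! h
  let Good := {φ : L.Formula (A ⊕ Fin n) // IsFinSat A (insert φ Γ)}
  have hsplit : ∀ φ : Good, ∃ φ₁ φ₂ : Good,
      (∀ c, φ₁.1.Realize (Sum.elim Subtype.val c) → φ.1.Realize (Sum.elim Subtype.val c)) ∧
      (∀ c, φ₂.1.Realize (Sum.elim Subtype.val c) → φ.1.Realize (Sum.elim Subtype.val c)) ∧
      ∀ c, φ₁.1.Realize (Sum.elim Subtype.val c) → ¬φ₂.1.Realize (Sum.elim Subtype.val c) := by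
    intro φ
    obtain ⟨c, c', hc, hc', hne⟩ := h φ.1 φ.2
    simp only [ElemEquiv, not_forall] at hne
    obtain ⟨m, ψ, idx, hψ⟩ := hne
    obtain ⟨d, d', hd, hd', h1, h2⟩ : ∃ d d' : Fin n → M,
        (∀ ψ ∈ insert φ.1 Γ, ψ.Realize (Sum.elim Subtype.val d)) ∧
        (∀ ψ ∈ insert φ.1 Γ, ψ.Realize (Sum.elim Subtype.val d')) ∧
        (ψ.relabel idx).Realize (Sum.elim Subtype.val d) ∧
        ¬(ψ.relabel idx).Realize (Sum.elim Subtype.val d') := by
      simp only [Formula.realize_relabel]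
      by_cases hp : ψ.Realize (Sum.elim (Subtype.val : A → M) c ∘ idx)
      · exact ⟨c, c', hc, hc', hp, fun hp' => hψ (iff_of_true hp hp')⟩
      · exact ⟨c', c, hc', hc, by_contra fun hp' => hψ (iff_of_false hp hp'), hp⟩
    have hgood : ∀ (χ : L.Formula (A ⊕ Fin n)) (e : Fin n → M),
        (∀ ψ ∈ insert φ.1 Γ, ψ.Realize (Sum.elim Subtype.val e)) →
        χ.Realize (Sum.elim Subtype.val e) → IsFinSat A (insert (φ.1 ⊓ χ) Γ) :=
      fun χ e he hχ s hs => ⟨e, fun ξ hξ => by
        rcases hs hξ with rfl | h'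
        exacts [Formula.realize_inf.2 ⟨he _ (mem_insert _ _), hχ⟩, he _ (mem_insert_of_mem _ h')]⟩
    exact ⟨⟨_, hgood (ψ.relabel idx) d hd h1⟩,
      ⟨_, hgood (ψ.relabel idx).not d' hd' (Formula.realize_not.2 h2)⟩,
      fun e he => (Formula.realize_inf.1 he).1, fun e he => (Formula.realize_inf.1 he).1,
      fun e he he' => Formula.realize_not.1 (Formula.realize_inf.1 he').2
        (Formula.realize_inf.1 he).2⟩
  choose φ₁ φ₂ h1 h2 h12 using hsplit
  let root : Good := ⟨⊤, fun s hs => by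
    obtain ⟨c, hc⟩ := hΓ (s.filter (· ∈ Γ)) fun φ hφ => (Finset.mem_filter.1 hφ).2
    refine ⟨c, fun φ hφ => ?_⟩
    rcases hs hφ with rfl | h'
    exacts [Formula.realize_top.2 trivial, hc φ (Finset.mem_filter.2 ⟨hφ, h'⟩)]⟩
  let node : List Bool → Good := fun s => List.rec root (fun b _ φ => cond b (φ₁ φ) (φ₂ φ)) s
  let pre : (ℕ → Bool) → ℕ → List Bool := fun τ m => Nat.rec [] (fun i s => τ i :: s) m
  have hmono : ∀ τ {i j}, i ≤ j → ∀ c, (node (pre τ j)).1.Realize (Sum.elim Subtype.val c) →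
      (node (pre τ i)).1.Realize (Sum.elim Subtype.val c) := by
    intro τ i j hij
    induction hij with
    | refl => exact fun _ => id
    | @step j _ ih =>
      intro c hc
      refine ih c ?_
      change (cond (τ j) (φ₁ (node (pre τ j))) (φ₂ (node (pre τ j)))).1.Realize _ at hc
      cases hτ : τ j <;> rw [hτ] at hc
      exacts [h2 _ c hc, h1 _ c hc]
  have hex : ∀ τ, ∃ c : Fin n → M, (∀ m, (node (pre τ m)).1.Realize (Sum.elim Subtype.val c)) := by
    intro τ
    obtain ⟨c, hc⟩ := IsFinSat.exists_realize hsat hA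
      (Γ := range fun m => (node (pre τ m)).1) fun s hs => by
        choose m hm using fun φ : s => hs φ.2
        let top := Finset.univ.sup m
        obtain ⟨c, hc⟩ := (node (pre τ top)).2 {(node (pre τ top)).1} (by simp)
        refine ⟨c, fun φ hφ => ?_⟩
        rw [← show (node (pre τ (m ⟨φ, hφ⟩))).1 = φ from hm _]
        exact hmono τ (Finset.le_sup (Finset.mem_univ _)) c (hc _ (Finset.mem_singleton_self _))
    exact ⟨c, fun m => hc _ ⟨m, rfl⟩⟩
  choose c hc using hex
  have hinj : Function.Injective fun τ =>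
      (⟨_, c τ, rfl⟩ : range (tupleType (L := L) (n := n) A)) := by
    intro τ τ' he
    have he := congrArg Subtype.val he
    have hstep : ∀ m, pre τ m = pre τ' m → τ m = τ' m := fun m hm => by
      have g1 : (node (τ m :: pre τ m)).1.Realize (Sum.elim Subtype.val (c τ')) :=
        (Set.ext_iff.1 he _).1 (hc τ (m + 1))
      have g2 : (node (τ' m :: pre τ' m)).1.Realize (Sum.elim Subtype.val (c τ')) := hc τ' (m + 1)
      rw [← hm] at g2
      revert g1 g2
      cases τ m <;> cases τ' m <;> intro g1 g2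
      exacts [rfl, absurd g1 (h12 _ _ g2), absurd g2 (h12 _ _ g1), rfl]
    have hpre : ∀ m, pre τ m = pre τ' m := fun m => by
      induction m with
      | zero => rfl
      | succ m ih =>
        change τ m :: pre τ m = τ' m :: pre τ' m
        rw [hstep m ih, ih]
    exact funext fun m => hstep m (hpre m)
  have := (countable_range_tupleType hst hsat hA n).to_subtype
  exact not_le.2 (cantor ℵ₀) (by simpa using mk_le_aleph0_iff.2 hinj.countable)

/-- **Translates return.** Along the powers of an elementary permutation some solutions of a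
partial type without parameters have the same type over the set. -/
theorem exists_translates (hst : IsOmegaStable T) (hsat : IsSaturated L (ℵ_ 1) M)
    (hA : A.Countable) (σ : Equiv.Perm A)
    (hσ : ElemEquiv L (Subtype.val : A → M) (Subtype.val ∘ σ)) {n : ℕ}
    (Δ : Set (L.Formula (Fin n))) (hΔ : ∃ c : Fin n → M, ∀ φ ∈ Δ, φ.Realize c) :
    ∃ c : ℕ → Fin n → M, (∀ l, ∀ φ ∈ Δ, φ.Realize (c l)) ∧
      (∀ l : ℕ, ElemEquiv L (Sum.elim (Subtype.val : A → M) (c 0))
        (Sum.elim (Subtype.val ∘ ⇑(σ ^ (l : ℤ))) (c l))) ∧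
      ∃ i j, i < j ∧
        ElemEquiv L (Sum.elim (Subtype.val : A → M) (c i)) (Sum.elim Subtype.val (c j)) := by
  classical
  have := hA.to_subtype
  let ρ : ℤ → A → M := fun l => Subtype.val ∘ ⇑(σ ^ l)
  have hρ : ∀ l, ElemEquiv L (Subtype.val : A → M) (ρ l) := elemEquiv_zpow σ hσ
  have hρadd : ∀ l m, ρ l ∘ ⇑(σ ^ m) = ρ (l + m) := fun l m => by
    simp only [ρ, Function.comp_assoc, ← Equiv.Perm.coe_mul, ← zpow_add]
  have hρ0 : ρ 0 = Subtype.val := by simp [ρ]
  let Sat : Set (L.Formula (A ⊕ Fin n)) → (Fin n → M) → Prop := fun Γ c =>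
    ∀ φ ∈ Γ, φ.Realize (Sum.elim Subtype.val c)
  let Inv : Set (L.Formula (A ⊕ Fin n)) → Prop := fun Γ => ∀ (c c' : Fin n → M) (l : ℤ),
    ElemEquiv L (Sum.elim (Subtype.val : A → M) c) (Sum.elim (ρ l) c') → Sat Γ c → Sat Γ c'
  let Γ₀ : Set (L.Formula (A ⊕ Fin n)) := (fun φ => φ.relabel Sum.inr) '' Δ
  have hΓ₀ : ∀ c, Sat Γ₀ c ↔ ∀ φ ∈ Δ, φ.Realize c := fun c => by
    simp only [Sat, Γ₀, forall_mem_image, Formula.realize_relabel, Sum.elim_comp_inr]
  obtain ⟨Γ, hΓ₀Γ, hΓ⟩ := zorn_subset_nonempty {Γ | Inv Γ ∧ IsFinSat A Γ}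
    (fun ch hch hchain hne => ⟨⋃₀ ch, ⟨fun c c' l h hc φ ⟨Γ, hΓ, hφ⟩ =>
      (hch hΓ).1 c c' l h (fun ψ hψ => hc ψ ⟨Γ, hΓ, hψ⟩) φ hφ, fun s hs => by
        obtain ⟨Γ, hΓ, hsub⟩ := hchain.directedOn.exists_mem_subset_of_finite_of_subset_sUnion hne
          s.finite_toSet hs
        exact (hch hΓ).2 s hsub⟩, fun Γ hΓ => subset_sUnion_of_mem hΓ⟩) Γ₀
    ⟨fun c c' l h hc => (hΓ₀ c').2 fun φ hφ =>
      (elemEquiv_realize (h.comp Sum.inr) φ).1 ((hΓ₀ c).1 hc φ hφ),
      fun s hs => hΔ.imp fun c hc φ hφ => (hΓ₀ c).2 hc φ (hs hφ)⟩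
  obtain ⟨φ, hφsat, huniq⟩ := exists_unique_completion hst hsat hA hΓ.prop.2
  obtain ⟨c₀, hc₀⟩ := hφsat.exists_realize hsat hA
  choose c hc using fun l : ℕ => (hρ l).exists_extend_fin hsat n c₀
  let φat : ℤ → (Fin n → M) → Prop := fun l c => φ.Realize (Sum.elim (ρ l) c)
  have hcΓ : ∀ l, Sat Γ (c l) := fun l =>
    hΓ.prop.1 c₀ (c l) l (hc l) fun ψ hψ => hc₀ ψ (mem_insert_of_mem _ hψ)
  have hcφ : ∀ l : ℕ, φat l (c l) := fun l =>
    (elemEquiv_realize (hc l) φ).1 (hc₀ φ (mem_insert _ _))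
  obtain ⟨Ls, hLs⟩ : ∃ Ls : Finset ℤ, ∀ c, Sat Γ c → ∃ m ∈ Ls, φat m c := by
    by_contra! hcov
    let neg : ℤ → L.Formula (A ⊕ Fin n) := fun l => (φ.relabel (Sum.map ⇑(σ ^ l) id)).not
    have hneg : ∀ l c, (neg l).Realize (Sum.elim Subtype.val c) ↔ ¬φat l c := fun l c => by
      simp only [neg, φat, ρ, Formula.realize_not, Formula.realize_relabel, Sum.elim_comp_map,
        Function.comp_id]
    have hmem : Γ ∪ range neg ∈ {Γ | Inv Γ ∧ IsFinSat A Γ} := by
      refine ⟨fun e e' m h he ψ hψ => ?_, fun s hs => ?_⟩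
      · rcases hψ with hψ | ⟨l, rfl⟩
        · exact hΓ.prop.1 e e' m h (fun ξ hξ => he ξ (.inl hξ)) ψ hψ
        · rw [hneg]
          intro hl
          refine (hneg (l - m) e).1 (he _ (.inr ⟨_, rfl⟩)) ?_
          have h' := h.comp (Sum.map ⇑(σ ^ (l - m)) id)
          rw [Sum.elim_comp_map, Sum.elim_comp_map, Function.comp_id, Function.comp_id,
            hρadd, add_sub_cancel] at h'
          exact (elemEquiv_realize h' φ).2 hl
      · choose l hl using fun ψ : {ψ : s // ψ.1 ∉ Γ} => (hs ψ.1.2).resolve_left ψ.2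
        obtain ⟨e, he, he'⟩ := hcov (Finset.univ.image l)
        refine ⟨e, fun ψ hψ => ?_⟩
        by_cases hψΓ : ψ ∈ Γ
        · exact he ψ hψΓ
        · have e1 : neg (l ⟨⟨ψ, hψ⟩, hψΓ⟩) = ψ := hl _
          rw [← e1, hneg]
          exact he' _ (Finset.mem_image_of_mem _ (Finset.mem_univ _))
    have := (hneg 0 c₀).1 (hc₀ _ (mem_insert_of_mem _
      (hΓ.le_of_ge hmem subset_union_left (.inr ⟨0, rfl⟩))))
    exact this (by simp only [φat, hρ0]; exact hc₀ φ (mem_insert _ _))
  choose pickm hpickm using fun l : ℕ => hLs (c l) (hcΓ l)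
  obtain ⟨i, j, hne, heq⟩ := Finite.exists_ne_map_eq_of_infinite
    fun l : ℕ => (⟨pickm l, (hpickm l).1⟩ : Ls)
  have heq : pickm i = pickm j := congrArg Subtype.val heq
  have hback : ∀ l : ℕ, ∃ e : Fin n → M, (∀ ψ ∈ insert φ Γ, ψ.Realize (Sum.elim Subtype.val e)) ∧
      ElemEquiv L (Sum.elim (Subtype.val : A → M) (c l)) (Sum.elim (ρ (-pickm l)) e) := fun l => by
    obtain ⟨e, he⟩ := (hρ (pickm l)).symm.exists_extend_fin hsat n (c l)
    have he' := he.comp (Sum.map ⇑(σ ^ (-pickm l)) id)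
    rw [Sum.elim_comp_map, Sum.elim_comp_map, Function.comp_id, Function.comp_id, hρadd,
      add_neg_cancel, hρ0] at he'
    refine ⟨e, fun ψ hψ => ?_, he'⟩
    rcases hψ with rfl | hψ
    · exact (elemEquiv_realize he ψ).1 (hpickm l).2
    · exact hΓ.prop.1 (c l) e (-pickm l) he' (hcΓ l) ψ hψ
  choose e he he' using hback
  have hij : ElemEquiv L (Sum.elim (Subtype.val : A → M) (c i)) (Sum.elim Subtype.val (c j)) := by
    have h := (huniq (e i) (e j) (he i) (he j)).comp (Sum.map ⇑(σ ^ (-pickm i)) id)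
    rw [Sum.elim_comp_map, Sum.elim_comp_map, Function.comp_id, Function.comp_id] at h
    exact (he' i).trans (h.trans (heq ▸ (he' j).symm))
  refine ⟨c, fun l => (hΓ₀ _).1 fun ψ hψ => hcΓ l ψ (hΓ₀Γ hψ), fun l => ?_, ?_⟩
  · have h0 : ρ ((0 : ℕ) : ℤ) = Subtype.val := hρ0
    exact (h0 ▸ (hc 0).symm).trans (hc l)
  · rcases lt_or_gt_of_ne hne with h | h
    exacts [⟨i, j, h, hij⟩, ⟨j, i, h, hij.symm⟩]

namespace Setting

variable {C : Setting T} {a b : Fin C.arity → M}

/-- **The difference of two dimensions is zero.** -/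
theorem diff_eq_zero [Countable L.Symbols] (hspan : C.HasFiniteSpan)
    (hsat : IsSaturated L (ℵ_ 1) M) (ha : C.IsParam a) (hb : C.IsParam b) : C.diff a b = 0 := by
  classical
  have hrich := isRichSet_univ_of_isSaturated hsat
  obtain ⟨A, hAc, hBA, -, hext⟩ := exists_closed_part hrich hrich
    (B := insert (Classical.arbitrary M) (range a ∪ range b))
    (((countable_range a).union (countable_range b)).insert _) (insert_nonempty _ _)
  let R₀ : Finset (M × M) := Finset.univ.image fun j => (a j, b j)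
  have hR₀c : (R₀ : Set (M × M)) = paramPairs a b := by simp [R₀, paramPairs]
  obtain ⟨R, hR₀R, hR, h1, h2⟩ := exists_back_forth hAc hAc R₀
    (hR₀c ▸ partialElementary_paramPairs (ha.symm.trans hb))
    (fun p hp => by
      obtain ⟨j, -, rfl⟩ := Finset.mem_image.1 hp
      exact ⟨hBA (mem_insert_of_mem _ (.inl ⟨j, rfl⟩)), hBA (mem_insert_of_mem _ (.inr ⟨j, rfl⟩))⟩)
    (fun R hR _ hRA x hx => (hext R hR hRA x hx).imp fun y h => ⟨h.1, h.2.2⟩)
    fun R hR _ hRA y hy => by
      obtain ⟨x, hx, -, hins⟩ := hext (R.image Prod.swap) (by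
        rw [Finset.coe_image]
        exact hR.swap) (fun p hp => by
        obtain ⟨q, hq, rfl⟩ := Finset.mem_image.1 hp
        exact (hRA q hq).symm) y hy
      refine ⟨x, hx, ?_⟩
      have := hins.swap
      rw [image_insert_eq, Finset.coe_image, image_image] at this
      simpa using this
  have hmap : ∀ x : A, ∃ y : A, (x.1, y.1) ∈ R := fun x => by
    obtain ⟨p, hp, hpx⟩ : x.1 ∈ Prod.fst '' R := h1.ge x.2
    exact ⟨⟨p.2, h2.le ⟨p, hp, rfl⟩⟩, by rw [← hpx]; exact hp⟩
  choose f hf using hmap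
  have hfb : Function.Bijective f := by
    refine ⟨fun x x' h => Subtype.ext ((hR.left_unique (hf x) (hf x')).2
      (congrArg Subtype.val h)), fun y => ?_⟩
    obtain ⟨p, hp, hpy⟩ : y.1 ∈ Prod.snd '' R := h2.ge y.2
    exact ⟨⟨p.1, h1.le ⟨p, hp, rfl⟩⟩,
      Subtype.ext (((hR.left_unique (hf _) hp).1 rfl).trans hpy)⟩
  let σ : Equiv.Perm A := Equiv.ofBijective f hfb
  have hσ : ElemEquiv L (Subtype.val : A → M) (Subtype.val ∘ σ) :=
    hR.comp fun x : A => (⟨(x.1, (f x).1), hf x⟩ : R)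
  let a' : Fin C.arity → A := fun j => ⟨a j, hBA (mem_insert_of_mem _ (.inl ⟨j, rfl⟩))⟩
  have hσa : Subtype.val ∘ σ ∘ a' = b := funext fun j =>
    (hR.left_unique (hf (a' j)) (hR₀R (hR₀c.ge ⟨j, rfl⟩))).1 rfl
  obtain ⟨c, hcΔ, hc, i, j, hij, hcij⟩ := exists_translates C.stable hsat hAc σ hσ
    {φ | φ.Realize C.t} ⟨b, fun φ hφ => (elemEquiv_realize hb φ).1 hφ⟩
  have hcp : ∀ l, C.IsParam (c l) := fun l m φ idx => by
    have key : ∀ φ : L.Formula (Fin m), φ.Realize (C.t ∘ idx) → φ.Realize (c l ∘ idx) :=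
      fun φ hφ => Formula.realize_relabel.1 (hcΔ l (φ.relabel idx) (Formula.realize_relabel.2 hφ))
    exact ⟨key φ, fun h => by_contra fun hn =>
      Formula.realize_not.1 (key φ.not (Formula.realize_not.2 hn)) h⟩
  let as : ℕ → Fin C.arity → M := fun l => Subtype.val ∘ ⇑(σ ^ (l : ℤ)) ∘ a'
  have has : ∀ l, C.IsParam (as l) := fun l =>
    ha.trans ((elemEquiv_zpow σ hσ l).comp a')
  have has0 : as 0 = a := by
    funext j
    simp [as, a']
  have hstep : ∀ l : ℕ, C.diff (as l) (as (l + 1)) = C.diff a b := fun l => by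
    refine (C.diff_congr hspan ha hb ?_).symm
    have h := (elemEquiv_zpow σ hσ l).comp (Sum.elim a' (σ ∘ a'))
    rw [Sum.comp_elim, Sum.comp_elim, hσa] at h
    have e : as (l + 1) = (Subtype.val ∘ ⇑(σ ^ (l : ℤ))) ∘ ⇑σ ∘ a' := by
      simp only [as, Nat.cast_succ, zpow_add_one, Equiv.Perm.coe_mul, Function.comp_assoc]
    rw [e]
    exact h
  have hmul : ∀ l : ℕ, C.diff (as 0) (as l) = l * C.diff a b := fun l => by
    induction l with
    | zero =>
      have := C.diff_add hspan (has 0) (has 0) (has 0)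
      simp only [Nat.cast_zero, zero_mul]
      omega
    | succ l ih =>
      rw [← C.diff_add hspan (has 0) (has l) (has (l + 1)), ih, hstep, Nat.cast_succ, add_mul,
        one_mul]
  have hac : ∀ l : ℕ, C.diff (as 0) (c 0) = C.diff (as l) (c l) := fun l => by
    refine C.diff_congr hspan (has 0) (hcp 0) ?_
    have h := (hc l).comp (Sum.map a' id)
    rw [Sum.elim_comp_map, Sum.elim_comp_map, Function.comp_id, Function.comp_id] at h
    rw [has0]
    exact h
  have hsame : C.diff (as i) (c i) = C.diff (as i) (c j) := by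
    refine C.diff_congr hspan (has i) (hcp i) ?_
    have h := hcij.comp (Sum.map (⇑(σ ^ (i : ℤ)) ∘ a') id)
    rw [Sum.elim_comp_map, Sum.elim_comp_map, Function.comp_id, Function.comp_id] at h
    exact h
  have h1' := C.diff_add hspan (has 0) (has i) (has j)
  have h2' := C.diff_add hspan (has i) (has j) (hcp j)
  have := hac i
  have := hac j
  rw [hmul, hmul] at h1'
  have hzero : ((j : ℤ) - i) * C.diff a b = 0 := by
    rw [sub_mul]
    omega
  exact (mul_eq_zero.1 hzero).resolve_left (by omega)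

/-- **The dimension does not depend on the parameters.** -/
theorem hasDim_param_congr [Countable L.Symbols] (hsat : IsSaturated L (ℵ_ 1) M)
    (hspan : C.HasFiniteSpan) (ha : C.IsParam a) (hb : C.IsParam b)
    {S : L.ElementarySubstructure M} (haS : range a ⊆ S) (hbS : range b ⊆ S) {n : ℕ}
    (h : C.HasDim a S n) : C.HasDim b S n := by
  obtain ⟨m, hm⟩ := C.exists_hasDim hspan ha hb haS hbS h
  have h0 := C.diff_eq ha hb haS hbS h hm
  rw [C.diff_eq_zero hspan hsat ha hb] at h0
  rwa [show n = m by omega]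

end Setting

end FA.CountableModels
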